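import Fermat.Agent.HindrySilverman.Main
import Mathlib.Tactic.ComputeDegree

/-!
# A section of height `2`

On `y² = x³ - 27 x + 324 (T³ + 1)²` the point `(0, 18 (T³ + 1))` is of infinite order and its height
is `2`, so the hypotheses of the height formula and of the lower bound are met.
-/

set_option autoImplicit false
set_option linter.unusedSectionVars false
set_option linter.style.haveILetI false

noncomputable section

open WeierstrassCurve Polynomial FA.SzpiroLine
open FA.CallSilverman
open FA.NeronSpecialisation (genW genW_isElliptic)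
open scoped Classical

namespace FA.HindrySilverman

variable {k : Type*} [Field k] [CharZero k] [IsAlgClosed k]

/-- The polynomial `T³ + 1`. -/
def exS (k : Type*) [Field k] : k[X] := X ^ 3 + 1

theorem natDegree_exS : (exS k).natDegree = 3 := by unfold exS; compute_degree!

theorem natDegree_exB : (-6 * exS k ^ 2).natDegree = 6 := by
  rw [show (-6 : k[X]) * exS k ^ 2 = C (-6 : k) * exS k ^ 2 by simp [map_ofNat],
    natDegree_C_mul (by norm_num), natDegree_pow, natDegree_exS]

theorem natDegree_exD : ((1 : k[X]) ^ 3 - (-6 * exS k ^ 2) ^ 2).natDegree = 12 := by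
  have h : ((-6 * exS k ^ 2 : k[X]) ^ 2).natDegree = 12 := by rw [natDegree_pow, natDegree_exB]
  rw [natDegree_sub_eq_right_of_natDegree_lt (by rw [h]; simp), h]

theorem semistable_example : Semistable (1 : k[X]) (-6 * exS k ^ 2) 1 where
  minimal := by
    refine ⟨by simp, by rw [natDegree_exB], fun h => ?_, fun t h => ?_⟩
    · rw [natDegree_exB] at h; omega
    · exact not_isUnit_X_sub_C t (isUnit_of_dvd_one ((dvd_pow_self _ (by norm_num : 4 ≠ 0)).trans h.1))
  disc_ne := fun e => by
    have h := natDegree_exD (k := k)
    rw [e, natDegree_zero] at h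
    omega
  nonconst := by
    rintro ⟨c, hc⟩
    have h := congrArg natDegree hc
    rcases eq_or_ne c 0 with rfl | hc0
    · rw [map_zero, zero_mul, one_pow] at hc
      exact one_ne_zero hc
    rw [natDegree_C_mul hc0, natDegree_exD, one_pow, natDegree_one] at h
    omega
  finite := fun t _ h => by simp at h
  infinite := fun h => by rw [natDegree_exD] at h; omega

theorem nonsingular_example :
    (genW (shortW (1 : k[X]) (-6 * exS k ^ 2))).toAffine.Nonsingular 0
      (algebraMap k[X] (RatFunc k) (18 * exS k)) := by
  haveI := genW_isElliptic (shortW_Δ_ne (semistable_example (k := k)))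
  refine Affine.equation_iff_nonsingular.1 ((Affine.equation_iff _ _).2 ?_)
  simp only [genW_shortW, shortEq, map_mul, map_pow, map_neg, map_ofNat, map_one]
  ring

theorem not_torsion_example :
    haveI := genW_isElliptic (shortW_Δ_ne (semistable_example (k := k)))
    ¬IsOfFinAddOrder (Affine.Point.some _ _ (nonsingular_example (k := k))) := by
  haveI := genW_isElliptic (shortW_Δ_ne (semistable_example (k := k)))
  intro hT
  have hs : exS k ≠ 0 := fun e => by
    have h := natDegree_exS (k := k)
    rw [e, natDegree_zero] at h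
    omega
  have hy : algebraMap k[X] (RatFunc k) (18 * exS k) ≠ 0 :=
    RatFunc.algebraMap_ne_zero (mul_ne_zero (by norm_num) hs)
  obtain ⟨y₂, h₂, e⟩ := exists_double (semistable_example (k := k)) nonsingular_example hy
  have key : ∀ {W : WeierstrassCurve (RatFunc k)} [W.IsElliptic],
      W = shortEq (1 : k[X]) (-6 * exS k ^ 2) → ∀ {x y : RatFunc k} (h : W.toAffine.Nonsingular x y),
        IsOfFinAddOrder (Affine.Point.some x y h) →
          ∃ p : k[X], x = algebraMap k[X] (RatFunc k) p := by
    intro W _ hW x y h hR
    subst hW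
    obtain ⟨p, q, h', e, -, -⟩ := FA.CoxParry.exists_polys (m := 1) (by simp)
      (by rw [natDegree_exB]) hR (Affine.Point.some_ne_zero h)
    rw [Affine.Point.some.injEq] at e
    exact ⟨p, e.1⟩
  obtain ⟨p, hp⟩ := key (genW_shortW _ _) h₂ (e ▸ hT.nsmul)
  have hpoly : (729 : k[X]) = p * (1296 * exS k ^ 2) := by
    refine RatFunc.algebraMap_injective k ?_
    rw [map_mul, ← hp]
    simp only [dblX, map_mul, map_pow, map_ofNat, map_one] at hy ⊢
    have hs' : algebraMap k[X] (RatFunc k) (exS k) ≠ 0 := RatFunc.algebraMap_ne_zero hs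
    field_simp
    ring
  have h := congrArg natDegree hpoly
  rcases eq_or_ne p 0 with rfl | hp0
  · rw [zero_mul] at hpoly
    norm_num at hpoly
  rw [natDegree_mul hp0 (mul_ne_zero (by norm_num) (pow_ne_zero _ hs)),
    natDegree_mul (by norm_num) (pow_ne_zero _ hs), natDegree_pow, natDegree_exS,
    natDegree_ofNat, natDegree_ofNat] at h
  omega

/-- **The height of the point is `2`.** -/
theorem genHgt_example :
    genHgt (shortW (1 : k[X]) (-6 * exS k ^ 2))
      (Affine.Point.some _ _ (nonsingular_example (k := k))) = 2 := by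
  haveI := genW_isElliptic (shortW_Δ_ne (semistable_example (k := k)))
  rw [genHgt_eq (semistable_example (k := k)) not_torsion_example]
  have hc : corrSum (1 : k[X]) (-6 * exS k ^ 2) 1 (0 : RatFunc k)
      (algebraMap k[X] (RatFunc k) (18 * exS k)) = 0 := by
    refine Finset.sum_eq_zero fun o ho => ?_
    have h0 : 0 < discOrd (1 : k[X]) (-6 * exS k ^ 2) 1 o := (Finset.mem_filter.1 ho).2
    cases o with
    | none => simp only [discOrd, natDegree_exD] at h0; omega
    | some t =>
      have e : 3 * (0 : RatFunc k) ^ 2 - 27 * algebraMap k[X] (RatFunc k) 1 =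
          algebraMap k[X] (RatFunc k) (-27 : k[X]) := by simp [map_ofNat]
      have hne : algebraMap k[X] (RatFunc k) (-27 : k[X]) ≠ 0 :=
        RatFunc.algebraMap_ne_zero (by norm_num)
      have hnr : ¬(-27 : k[X]).IsRoot t := by simp [IsRoot.def]
      have hcomp : component (1 : k[X]) (-6 * exS k ^ 2) 1 (some t) (0 : RatFunc k)
          (algebraMap k[X] (RatFunc k) (18 * exS k)) = 0 := by
        rw [component, e, if_neg]
        simp only [placeOrd, RatFunc.num_algebraMap, RatFunc.denom_algebraMap,
          rootMultiplicity_eq_zero hnr, not_or]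
        exact ⟨hne, by omega⟩
      rw [compCorr, hcomp]
      simp
  rw [hc]
  simp [poleDeg]

end FA.HindrySilverman
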