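import Fermat.Agent.HindrySilverman.Narrow
import Fermat.Agent.HindrySilverman.Example
import Mathlib.FieldTheory.Separable
import Mathlib.RingTheory.Polynomial.Resultant.Basic
import Mathlib.RingTheory.Noetherian.Basic

/-!
# Surfaces without reducible fibres, and minimal vectors

A point with singular reduction forces the discriminant to vanish to order two. So if it has only
simple zeros all points are narrow; and narrow points of height `2 m` congruent modulo two agree up to
sign.
-/

set_option autoImplicit false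
set_option linter.unusedSectionVars false
set_option linter.style.haveILetI false

noncomputable section

open WeierstrassCurve Polynomial FA.Local FA.LevinTorsion FA.SzpiroLine FA.LangNeron
open FA.CallSilverman
open FA.NeronSpecialisation (genW genW_isElliptic)
open scoped Classical

namespace FA.HindrySilverman

/-- **A singular reduction needs a discriminant of order two.** -/
theorem disc_le_of_singular {L Γ : Type*} [Field L] [LinearOrderedCommGroupWithZero Γ]
    {v : Valuation L Γ} (hv : ∀ n : ℤ, n ≠ 0 → v (n : L) = 1) {q : Γ} (hq1 : q ≤ 1) {a b x y : L}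
    (hx : v x ≤ 1) (heq : y ^ 2 = x ^ 3 - 27 * a * x - 54 * b) (hy : v y ≤ q)
    (hf : v (3 * x ^ 2 - 27 * a) ≤ q) : v (a ^ 3 - b ^ 2) ≤ q ^ 2 := by
  have h2 : (2 : L) ≠ 0 := two_ne hv
  have h4 : (4 : L) ≠ 0 := fun e => by simpa [e] using val_ofNat hv 4
  have h27 : (27 : L) ≠ 0 := fun e => by simpa [e] using val_ofNat hv 27
  have h3 : (3 : L) ≠ 0 := fun e => by simpa [e] using val_ofNat hv 3
  obtain ⟨s, rfl⟩ : ∃ s, x = 3 * s := ⟨x / 3, by field_simp⟩
  set φ := (3 * (3 * s) ^ 2 - 27 * a) / 27 with hφdef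
  set ψ := y ^ 2 / 27 with hψdef
  have hvs : v s ≤ 1 := by rwa [map_mul, val_ofNat hv 3, one_mul] at hx
  have hvφ : v φ ≤ q := by rwa [hφdef, map_div₀, val_ofNat hv 27, div_one]
  have hvψ : v ψ ≤ q ^ 2 := by
    rw [hψdef, map_div₀, val_ofNat hv 27, div_one, map_pow]
    exact pow_le_pow_left₀ zero_le hy 2
  have hea : a = s ^ 2 - φ := by rw [hφdef]; field_simp; ring
  have heb : b = -s ^ 3 + (3 * s * φ - ψ) / 2 := by
    rw [hφdef, hψdef, heq]
    field_simp
    ring
  rw [show a ^ 3 - b ^ 2 =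
    φ ^ 2 * (3 * s ^ 2 / 4 - φ) + ψ * (-s ^ 3 + 3 * s * φ / 2) - ψ * ψ / 4 by
      rw [hea, heb]; field_simp; ring]
  have hq2 : q ^ 2 ≤ 1 := pow_le_one₀ zero_le hq1
  refine v.map_sub_le (v.map_add_le ?_ ?_) ?_
  · rw [map_mul, map_pow]
    refine mul_le_of_le_of_le_one (pow_le_pow_left₀ zero_le hvφ 2)
      (v.map_sub_le ?_ (hvφ.trans hq1))
    rw [map_div₀, val_ofNat hv 4, div_one, map_mul, val_ofNat hv 3, one_mul, map_pow]
    exact pow_le_one₀ zero_le hvs
  · rw [map_mul]
    refine mul_le_of_le_of_le_one hvψ (v.map_add_le ?_ ?_)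
    · rw [v.map_neg, map_pow]; exact pow_le_one₀ zero_le hvs
    · rw [map_div₀, val_ofNat hv 2, div_one, map_mul, map_mul, val_ofNat hv 3, one_mul]
      exact mul_le_one' hvs (hvφ.trans hq1)
  · rw [map_div₀, val_ofNat hv 4, div_one, map_mul]
    exact mul_le_of_le_of_le_one hvψ (hvψ.trans hq2)

variable {k : Type*} [Field k] [CharZero k] [IsAlgClosed k] {A B : k[X]} {m : ℕ}

/-- Simple zeros of the discriminant, infinity included, make the pair semistable. -/
theorem semistable_of_squarefree (hm : 0 < m) (hA : A.natDegree ≤ 4 * m) (hB : B.natDegree ≤ 6 * m)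
    (hsq : Squarefree (A ^ 3 - B ^ 2)) (hdeg : 12 * m ≤ (A ^ 3 - B ^ 2).natDegree + 1) :
    Semistable A B m := by
  have hD : A ^ 3 - B ^ 2 ≠ 0 := hsq.ne_zero
  have hinf : (A ^ 3 - B ^ 2).natDegree < 12 * m → A.natDegree = 4 * m := by
    intro hlt
    by_contra hne
    rcases eq_or_ne (2 * B.natDegree) (12 * m) with h | h
    · have h' : (A ^ 3 - B ^ 2).natDegree = 12 * m := by
        rw [natDegree_sub_eq_right_of_natDegree_lt (by rw [natDegree_pow, natDegree_pow]; omega),
          natDegree_pow]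
        omega
      omega
    · have h' : (A ^ 3 - B ^ 2).natDegree + 2 ≤ 12 * m := by
        have := natDegree_sub_le (A ^ 3) (B ^ 2)
        rw [natDegree_pow, natDegree_pow] at this
        omega
      omega
  have hfin : ∀ t : k, (A ^ 3 - B ^ 2).IsRoot t → ¬A.IsRoot t := by
    intro t ht hAt
    have hBt : B.IsRoot t := by
      have := ht.eq_zero
      rw [eval_sub, eval_pow, eval_pow, hAt.eq_zero, zero_pow three_ne_zero, zero_sub, neg_eq_zero]
        at this
      exact eq_zero_of_pow_eq_zero this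
    refine not_isUnit_X_sub_C t (hsq _ ?_)
    obtain ⟨a, ha⟩ := dvd_iff_isRoot.2 hAt
    obtain ⟨b, hb⟩ := dvd_iff_isRoot.2 hBt
    exact ⟨(X - C t) * a ^ 3 - b ^ 2, by rw [ha, hb]; ring⟩
  refine ⟨⟨hA, hB, fun h => ?_, fun t h => ?_⟩, hD, ?_, hfin, hinf⟩
  · have := natDegree_sub_le (A ^ 3) (B ^ 2)
    rw [natDegree_pow, natDegree_pow] at this
    omega
  · have h4 : (X - C t) ∣ A := (dvd_pow_self _ (by norm_num : 4 ≠ 0)).trans h.1
    have h6 : (X - C t) ∣ B := (dvd_pow_self _ (by norm_num : 6 ≠ 0)).trans h.2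
    refine hfin t ?_ (dvd_iff_isRoot.1 h4)
    rw [IsRoot.def, eval_sub, eval_pow, eval_pow, (dvd_iff_isRoot.1 h4).eq_zero,
      (dvd_iff_isRoot.1 h6).eq_zero]
    simp
  · rintro ⟨c, hc⟩
    obtain ⟨t, ht⟩ := IsAlgClosed.exists_root (A ^ 3 - B ^ 2) (fun e => by
      have h := natDegree_eq_zero_iff_degree_le_zero.2 e.le
      omega)
    refine hfin t ht ?_
    have := congrArg (Polynomial.eval t) hc
    rw [eval_pow, eval_mul, ht.eq_zero, mul_zero] at this
    exact eq_zero_of_pow_eq_zero this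

theorem discOrd_le_one (hsq : Squarefree (A ^ 3 - B ^ 2))
    (hdeg : 12 * m ≤ (A ^ 3 - B ^ 2).natDegree + 1) (o : Option k) : discOrd A B m o ≤ 1 := by
  cases o with
  | none => simp only [discOrd]; omega
  | some t =>
    by_contra h
    refine not_isUnit_X_sub_C t (hsq _ ?_)
    rw [← sq]
    exact (le_rootMultiplicity_iff hsq.ne_zero).1 (not_le.1 h)

variable (hS : Semistable A B m) [(genW (shortW A B)).IsElliptic]
include hS

/-- **Simple discriminant: every point is narrow.** -/
theorem narrow_eq_top (h1 : ∀ o, discOrd A B m o ≤ 1) : narrow hS = ⊤ := by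
  refine (AddSubgroup.eq_top_iff' _).2 fun P o => ?_
  rcases Nat.eq_zero_or_pos (discOrd A B m o) with h0 | h0
  · exact smoothPt_of_good hS h0 _
  rcases P with _ | ⟨x, y, h⟩
  · trivial
  set j := algebraMap (RatFunc k) (AlgebraicClosure (RatFunc k))
  obtain ⟨V, q, a, b, u, hell, Φ, hv, hq0, hq1, ha, hb, hD, -, -, hΦ, hy', -, hf', he⟩ :=
    exists_model_at hS o
  obtain ⟨h', -⟩ := hΦ x y h
  show SmoothAt A m o x y
  by_contra hns
  have hns' := hns
  rw [SmoothAt, not_or, not_and, not_and, not_le, not_le] at hns'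
  obtain ⟨hny, hnf⟩ := hns'
  have hsmall : ∀ {z : RatFunc k} {i d : ℕ},
      (z ≠ 0 → V.valuation (j z / u ^ i) = q ^ placeOrd d o z) →
      (z ≠ 0 → 0 < placeOrd d o z) → V.valuation (j z / u ^ i) ≤ q := fun {z i d} hz hpos => by
    rcases eq_or_ne z 0 with rfl | hz0
    · simp
    calc V.valuation (j z / u ^ i) = q ^ placeOrd d o z := hz hz0
      _ ≤ q ^ (1 : ℤ) := (zpow_right_strictAnti₀ hq0 hq1).antitone (hpos hz0)
      _ = q := zpow_one q
  have hvy : V.valuation (j y / u ^ 3) ≤ q := hsmall (hy' y) hny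
  have hvf : V.valuation (3 * (j x / u ^ 2) ^ 2 - 27 * a) ≤ q := he x ▸ hsmall (hf' _) hnf
  have hx : V.valuation (j x / u ^ 2) ≤ 1 := by
    by_contra hx
    rw [not_le] at hx
    refine (hvf.trans_lt hq1).not_ge ?_
    have e3 : V.valuation (3 * (j x / u ^ 2) ^ 2) = V.valuation (j x / u ^ 2) ^ 2 := by
      rw [map_mul, map_pow, val_ofNat hv 3, one_mul]
    rw [V.valuation.map_sub_eq_of_lt_left] <;> rw [e3]
    · exact one_le_pow₀ hx.le
    · rw [map_mul, val_ofNat hv 27, one_mul]
      exact ha.trans_lt (one_lt_pow₀ hx two_ne_zero)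
  have := disc_le_of_singular hv hq1.le hx (equation_shortL h'.1) hvy hvf
  rw [hD, show discOrd A B m o = 1 from le_antisymm (h1 o) h0] at this
  exact absurd ((pow_le_pow_iff_right_of_lt_one₀ hq0 hq1).1 this) (by norm_num)

/-- **Few minimal vectors.** -/
theorem count_minimal :
    {P : (genW (shortW A B)).toAffine.Point |
        P ∈ narrow hS ∧ genHgt (shortW A B) P = 2 * (m : ℝ)}.Finite ∧
      {P : (genW (shortW A B)).toAffine.Point |
        P ∈ narrow hS ∧ genHgt (shortW A B) P = 2 * (m : ℝ)}.ncard ≤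
          2 * (2 ^ Module.finrank ℤ (genW (shortW A B)).toAffine.Point - 1) := by
  haveI : Module.Finite ℤ (genW (shortW A B)).toAffine.Point := fg_genW (nonSplit_shortW hS)
  haveI : Module.Finite ℤ (narrow hS) := Module.Finite.of_injective
    (narrow hS).subtype.toIntLinearMap Subtype.val_injective
  have hrank : Module.finrank ℤ (narrow hS) ≤
      Module.finrank ℤ (genW (shortW A B)).toAffine.Point :=
    LinearMap.finrank_le_finrank_of_injective (f := (narrow hS).subtype.toIntLinearMap)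
      Subtype.val_injective
  set S := {P : (genW (shortW A B)).toAffine.Point |
    P ∈ narrow hS ∧ genHgt (shortW A B) P = 2 * (m : ℝ)}
  have hfin : S.Finite := (count_height_le hS 1 one_pos).1.subset fun P hP =>
    le_of_eq (hP.2.trans (by push_cast; ring))
  obtain ⟨f, hf⟩ := exists_classes (narrow hS) (N := 2)
  obtain ⟨-, hpar, -⟩ := genHgt_spec (shortW_Δ_ne hS)
  have hm := pos_level hS.minimal hS.disc_ne hS.nonconst
  have hm' : (0 : ℝ) < m := Nat.cast_pos.2 hm
  have hmin : ∀ R : narrow hS, R ≠ 0 → 2 * (m : ℝ) ≤ genHgt (shortW A B) R.1 := fun R hR => by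
    obtain ⟨z, hz, hz'⟩ := genHgt_narrow_even hS R.2
    rw [hz]
    have : (m : ℝ) ≤ z := Nat.cast_le.2 (hz' fun e => hR (Subtype.ext e))
    linarith
  have hhalve : ∀ P Q : narrow hS, f P = f Q → ∃ R : narrow hS, P - Q = 2 • R := fun P Q h => by
    obtain ⟨R, hR⟩ := hf P Q h
    have h0 := narrow_torsion_free hS (P - Q - 2 • R).2 ((narrow hS).subtype.isOfFinAddOrder hR)
    exact ⟨R, sub_eq_zero.1 (Subtype.ext h0)⟩
  have h4 : ∀ R : narrow hS, genHgt (shortW A B) (2 • R : narrow hS).1 =
      4 * genHgt (shortW A B) R.1 := fun R => by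
    rw [AddSubgroup.coe_nsmul, FA.Height.map_nsmul_of_law hpar]
    norm_num
  let T : Finset (narrow hS) :=
    (hfin.toFinset).attach.image fun P => ⟨P.1, (hfin.mem_toFinset.1 P.2).1⟩
  have hT : ∀ P ∈ T, genHgt (shortW A B) P.1 = 2 * (m : ℝ) := fun P hP => by
    obtain ⟨P', -, rfl⟩ := Finset.mem_image.1 hP
    exact (hfin.mem_toFinset.1 P'.2).2
  have hcardT : S.ncard = T.card := by
    refine (Set.ncard_eq_toFinset_card S hfin).trans ?_
    refine Finset.card_attach.symm.trans (Finset.card_image_of_injective _ fun P Q h => ?_).symm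
    exact Subtype.ext (congrArg (fun R : narrow hS => R.1) h)
  have hzero : ∀ P ∈ T, f P ≠ f 0 := fun P hP h => by
    obtain ⟨R, hR⟩ := hhalve P 0 h
    rw [sub_zero] at hR
    have hP' := hT P hP
    rw [hR, h4] at hP'
    rcases eq_or_ne R 0 with rfl | hR0
    · rw [ZeroMemClass.coe_zero, FA.Height.map_zero_of_law hpar] at hP'
      linarith
    · linarith [hmin R hR0]
  have hfib : ∀ b ∈ T.image f, (T.filter fun P => f P = b).card ≤ 2 := fun b hb => by
    obtain ⟨Q, hQ, rfl⟩ := Finset.mem_image.1 hb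
    refine (Finset.card_le_card (t := {Q, -Q}) fun P hP => ?_).trans Finset.card_le_two
    rw [Finset.mem_filter] at hP
    rw [Finset.mem_insert, Finset.mem_singleton]
    obtain ⟨R, hR⟩ := hhalve P Q hP.2
    by_contra hne
    rw [not_or] at hne
    have h1 : R ≠ 0 := fun e => hne.1 (sub_eq_zero.1 (by rw [hR, e, nsmul_zero]))
    have hsum : P + Q = 2 • (R + Q) := by rw [nsmul_add, ← hR]; abel
    have h2 : R + Q ≠ 0 := fun e => hne.2 (eq_neg_iff_add_eq_zero.2 (by rw [hsum, e, nsmul_zero]))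
    have hp := hpar P.1 Q.1
    rw [← AddSubgroup.coe_add, ← AddSubgroup.coe_sub, hsum, hR, h4, h4, hT P hP.1, hT Q hQ] at hp
    linarith [hmin R h1, hmin _ h2]
  have himg : (T.image f).card ≤ 2 ^ Module.finrank ℤ (narrow hS) - 1 := by
    have hsub : T.image f ⊆ Finset.univ.erase (f 0) := fun b hb => by
      obtain ⟨P, hP, rfl⟩ := Finset.mem_image.1 hb
      exact Finset.mem_erase.2 ⟨hzero P hP, Finset.mem_univ _⟩
    refine (Finset.card_le_card hsub).trans (le_of_eq ?_)
    rw [Finset.card_erase_of_mem (Finset.mem_univ _), Finset.card_univ, Fintype.card_fun,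
      ZMod.card, Fintype.card_fin]
  refine ⟨hfin, ?_⟩
  rw [hcardT]
  refine (Finset.card_le_mul_card_image T 2 hfib).trans (Nat.mul_le_mul_left 2 (himg.trans ?_))
  exact Nat.sub_le_sub_right (Nat.pow_le_pow_right two_pos hrank) 1

omit hS [(genW (shortW A B)).IsElliptic]

/-- The example has a squarefree discriminant. -/
theorem squarefree_example : Squarefree ((1 : k[X]) ^ 3 - (-6 * exS k ^ 2) ^ 2) := by
  refine Separable.squarefree ?_
  rw [separable_def]
  refine (isCoprime_iff_aeval_ne_zero_of_isAlgClosed k k _ _).2 fun r => ?_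
  by_contra hcon
  push Not at hcon
  obtain ⟨h1, h2⟩ := hcon
  simp only [exS, aeval_def, eval₂_eq_eval_map, Algebra.algebraMap_self, Polynomial.map_id,
    derivative_sub, derivative_pow, derivative_mul, derivative_add, derivative_one,
    derivative_X, derivative_neg, derivative_ofNat, eval_sub, eval_mul, eval_pow, eval_add,
    eval_one, eval_neg, eval_ofNat, eval_X, eval_C, eval_zero] at h1 h2
  norm_num at h1 h2
  rcases h2 with h | h
  · rw [h] at h1; norm_num at h1
  · subst h; norm_num at h1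

end FA.HindrySilverman
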