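import Fermat.Agent.HindrySilverman.Main
import Fermat.Agent.CoxParry.Classification
import Mathlib.LinearAlgebra.Dimension.Torsion.Basic

/-!
# Counting points of bounded height

Two points with height at most `2 c m` in one class modulo torsion and `459 c` differ by torsion,
because a point of infinite order has height at least `(m + 6) / 26235`.
-/

set_option autoImplicit false
set_option linter.unusedSectionVars false
set_option linter.style.haveILetI false

noncomputable section

open WeierstrassCurve Polynomial FA.SzpiroLine FA.LangNeron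
open FA.CallSilverman
open FA.NeronSpecialisation (genW genW_isElliptic)
open scoped Classical

namespace FA.HindrySilverman

/-- Classes modulo torsion and `N`. -/
theorem exists_classes (G : Type*) [AddCommGroup G] [Module.Finite ℤ G] {N : ℕ} :
    ∃ f : G → (Fin (Module.finrank ℤ G) → ZMod N),
      ∀ P Q, f P = f Q → ∃ R, IsOfFinAddOrder (P - Q - N • R) := by
  set T := Submodule.torsion ℤ G with hT
  have hr : Module.finrank ℤ (G ⧸ T) = Module.finrank ℤ G :=
    finrank_quotient_eq_of_le_torsion le_rfl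
  set b := Module.finBasisOfFinrankEq ℤ (G ⧸ T) hr
  refine ⟨fun P i => (b.repr (T.mkQ P) i : ZMod N), fun P Q h => ?_⟩
  have hdiv : ∀ i, ∃ z : ℤ, b.repr (T.mkQ P) i - b.repr (T.mkQ Q) i = N * z := fun i => by
    obtain ⟨z, hz⟩ := (ZMod.intCast_eq_intCast_iff_dvd_sub _ _ N).1 (congrFun h i).symm
    exact ⟨z, hz⟩
  choose z hz using hdiv
  obtain ⟨R, hR⟩ := Submodule.Quotient.mk_surjective T (∑ i, z i • b i)
  have h0 : T.mkQ (P - Q - N • R) = 0 := by
    refine b.ext_elem fun i => ?_
    rw [map_zero, Finsupp.zero_apply, map_sub, map_sub, map_nsmul, T.mkQ_apply R, hR, map_sub,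
      map_sub, map_nsmul, Finsupp.sub_apply, Finsupp.sub_apply,
      Finsupp.smul_apply, congrFun (b.repr_sum_self z) i, nsmul_eq_mul, hz i, sub_self]
  rw [Submodule.mkQ_apply, Submodule.Quotient.mk_eq_zero] at h0
  refine ⟨R, ?_⟩
  rw [hT, ← Submodule.mem_toAddSubgroup, Submodule.torsion_int] at h0
  exact h0

variable {k : Type*} [Field k] [CharZero k] [IsAlgClosed k] {A B : k[X]} {m : ℕ}
  (hS : Semistable A B m)
include hS

theorem nonSplit_shortW : NonSplit (shortW A B) := by
  refine nonSplit_of_not_const (shortW_Δ_ne hS) fun ⟨d, hd⟩ => hS.nonconst ⟨d * 27 / 46656, ?_⟩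
  refine mul_left_cancel₀ (show (2176782336 : k[X]) ≠ 0 by norm_num) ?_
  have e : (2176782336 : k[X]) = Polynomial.C (2176782336 : k) := by simp [map_ofNat]
  rw [← mul_assoc, e, ← map_mul,
    show (2176782336 : k) * (d * 27 / 46656) = d * 1259712 by field_simp; ring, map_mul, map_ofNat,
    map_ofNat]
  simp only [shortW, WeierstrassCurve.c₄, WeierstrassCurve.Δ, WeierstrassCurve.b₂,
    WeierstrassCurve.b₄, WeierstrassCurve.b₆, WeierstrassCurve.b₈] at hd
  linear_combination hd

theorem notConst_genW : FA.CoxParry.NotConst (genW (shortW A B)) := fun e =>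
  (nonSplit_shortW hS).2 ((isSplit_iff (shortW_Δ_ne hS)).2 e)

variable [(genW (shortW A B)).IsElliptic]

theorem finite_torsion_card :
    {P : (genW (shortW A B)).toAffine.Point | IsOfFinAddOrder P}.Finite ∧
      {P : (genW (shortW A B)).toAffine.Point | IsOfFinAddOrder P}.ncard ≤ 25 := by
  obtain ⟨⟨a, b⟩, hmem, ⟨e⟩⟩ := FA.CoxParry.torsion_classification (notConst_genW hS)
  have key : 0 < a ∧ 0 < b ∧ a * b ≤ 25 :=
    (by decide : ∀ p ∈ FA.CoxParry.nineteen, 0 < p.1 ∧ 0 < p.2 ∧ p.1 * p.2 ≤ 25) (a, b) hmem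
  haveI := FA.CoxParry.finite_torsion (notConst_genW hS)
  refine ⟨Set.finite_coe_iff.1 (show Finite
    {P : (genW (shortW A B)).toAffine.Point // IsOfFinAddOrder P} from
      FA.CoxParry.finite_torsion (notConst_genW hS)), ?_⟩
  rw [← Nat.card_coe_set_eq]
  show Nat.card (AddCommGroup.torsion (genW (shortW A B)).toAffine.Point) ≤ 25
  refine le_trans (le_of_eq (Nat.card_congr e.toEquiv)) ?_
  rw [Nat.card_prod, Nat.card_zmod, Nat.card_zmod]
  exact key.2.2

/-- **Uniformly many points of bounded height.** -/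
theorem count_height_le (c : ℕ) (hc : 0 < c) :
    {P : (genW (shortW A B)).toAffine.Point | genHgt (shortW A B) P ≤ 2 * c * m}.Finite ∧
      {P : (genW (shortW A B)).toAffine.Point | genHgt (shortW A B) P ≤ 2 * c * m}.ncard ≤
        25 * (459 * c) ^ Module.finrank ℤ (genW (shortW A B)).toAffine.Point := by
  haveI : Module.Finite ℤ (genW (shortW A B)).toAffine.Point :=
    fg_genW (nonSplit_shortW hS)
  haveI : NeZero (459 * c) := ⟨by omega⟩
  obtain ⟨-, hpar, hnn⟩ := genHgt_spec (shortW_Δ_ne hS)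
  obtain ⟨hfin, hcard⟩ := finite_torsion_card hS
  obtain ⟨f, hf⟩ := exists_classes (genW (shortW A B)).toAffine.Point (N := 459 * c)
  set S := {P : (genW (shortW A B)).toAffine.Point | genHgt (shortW A B) P ≤ 2 * c * m}
  have key : ∀ P ∈ S, ∀ Q ∈ S, f P = f Q → IsOfFinAddOrder (P - Q) := by
    intro P hP Q hQ hfe
    obtain ⟨R, hR⟩ := hf P Q hfe
    suffices hRt : IsOfFinAddOrder R by
      have := (AddCommute.all _ _).isOfFinAddOrder_add hR (hRt.nsmul (n := 459 * c))
      rwa [sub_add_cancel] at this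
    by_contra hRt
    have h1 := height_ge hS hRt
    have h2 : genHgt (shortW A B) (P - Q) = genHgt (shortW A B) ((459 * c) • R) := by
      obtain ⟨n, hn, hn'⟩ := isOfFinAddOrder_iff_nsmul_eq_zero.1 hR
      rw [nsmul_sub, sub_eq_zero] at hn'
      have := congrArg (genHgt (shortW A B)) hn'
      rw [FA.Height.map_nsmul_of_law hpar n, FA.Height.map_nsmul_of_law hpar n] at this
      exact mul_left_cancel₀ (pow_ne_zero 2 (Nat.cast_ne_zero.2 hn.ne')) this
    have h3 := hpar P Q
    have h4 := hnn (P + Q)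
    have hP' : genHgt (shortW A B) P ≤ 2 * c * m := hP
    have hQ' : genHgt (shortW A B) Q ≤ 2 * c * m := hQ
    rw [h2, FA.Height.map_nsmul_of_law hpar] at h3
    have h5 : (((459 * c : ℕ) : ℝ)) ^ 2 * (((m : ℝ) + 6) / 26235) ≤ 8 * (c : ℝ) * m := by
      have := mul_le_mul_of_nonneg_left h1 (sq_nonneg (((459 * c : ℕ) : ℝ)))
      linarith
    have hc1 : (1 : ℝ) ≤ c := Nat.one_le_cast.2 hc
    have hm : (0 : ℝ) ≤ m := Nat.cast_nonneg m
    push_cast at h5
    have hcc : (c : ℝ) * ((m : ℝ) + 6) ≤ (c : ℝ) ^ 2 * ((m : ℝ) + 6) :=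
      mul_le_mul_of_nonneg_right (by nlinarith) (by linarith)
    nlinarith [mul_pos (zero_lt_one.trans_le hc1) (show (0 : ℝ) < (m : ℝ) + 6 by linarith)]
  set g := Function.invFunOn f S with hg
  have hinj : Set.InjOn
      (fun P => (f P, P - g (f P))) S := fun P _ Q _ h => by
    simp only [Prod.mk.injEq] at h
    rw [h.1] at h
    exact sub_left_inj.1 h.2
  have hmaps : Set.MapsTo (fun P => (f P, P - g (f P))) S
      (Set.univ ×ˢ {P : (genW (shortW A B)).toAffine.Point | IsOfFinAddOrder P}) := fun P hP => by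
    have hmem : ∃ Q ∈ S, f Q = f P := ⟨P, hP, rfl⟩
    exact ⟨trivial, key P hP _ (Function.invFunOn_mem hmem) (Function.invFunOn_eq hmem).symm⟩
  have hT : (Set.univ ×ˢ {P : (genW (shortW A B)).toAffine.Point | IsOfFinAddOrder P} :
      Set ((Fin (Module.finrank ℤ (genW (shortW A B)).toAffine.Point) → ZMod (459 * c)) ×
        (genW (shortW A B)).toAffine.Point)).Finite := Set.finite_univ.prod hfin
  refine ⟨Set.Finite.of_injOn hmaps hinj hT, (Set.ncard_le_ncard_of_injOn _ hmaps hinj hT).trans ?_⟩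
  rw [Set.ncard_prod, Set.ncard_univ, Nat.card_eq_fintype_card, Fintype.card_fun, ZMod.card,
    Fintype.card_fin, mul_comm]
  exact Nat.mul_le_mul_right _ hcard

/-- A point with abscissa of bounded pole degree has bounded height. -/
theorem height_le_poleDeg {x y : RatFunc k}
    {h : (genW (shortW A B)).toAffine.Nonsingular x y} :
    genHgt (shortW A B) (Affine.Point.some x y h) ≤
      (max (2 * m + x.denom.natDegree) x.num.natDegree : ℕ) := by
  by_cases hP : IsOfFinAddOrder (Affine.Point.some x y h)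
  · rw [(genHgt_eq_zero_iff (nonSplit_shortW hS) _).2 hP]
    exact Nat.cast_nonneg _
  · rw [genHgt_eq hS hP]
    have := (corrSum_le hS x y).1
    simp only [poleDeg]
    linarith

/-- **Uniformly many integral sections.** -/
theorem count_integral :
    {P : (genW (shortW A B)).toAffine.Point | ∃ (p : k[X]) (y : RatFunc k) (h : _),
      p.natDegree ≤ 2 * m ∧ P = Affine.Point.some (algebraMap k[X] (RatFunc k) p) y h}.Finite ∧
    {P : (genW (shortW A B)).toAffine.Point | ∃ (p : k[X]) (y : RatFunc k) (h : _),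
      p.natDegree ≤ 2 * m ∧ P = Affine.Point.some (algebraMap k[X] (RatFunc k) p) y h}.ncard ≤
        25 * 459 ^ Module.finrank ℤ (genW (shortW A B)).toAffine.Point := by
  obtain ⟨h1, h2⟩ := count_height_le hS 1 one_pos
  rw [mul_one] at h2
  have hsub : {P : (genW (shortW A B)).toAffine.Point | ∃ (p : k[X]) (y : RatFunc k) (h : _),
      p.natDegree ≤ 2 * m ∧ P = Affine.Point.some (algebraMap k[X] (RatFunc k) p) y h} ⊆
      {P : (genW (shortW A B)).toAffine.Point |
        genHgt (shortW A B) P ≤ 2 * ((1 : ℕ) : ℝ) * m} := by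
    rintro P ⟨p, y, h, hp, rfl⟩
    refine (height_le_poleDeg hS).trans ?_
    rw [RatFunc.num_algebraMap, RatFunc.denom_algebraMap, natDegree_one, Nat.cast_one, mul_one]
    exact_mod_cast (show max (2 * m + 0) p.natDegree ≤ 2 * m by omega)
  exact ⟨h1.subset hsub, (Set.ncard_le_ncard hsub h1).trans h2⟩

end FA.HindrySilverman
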