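import Fermat.Agent.HindrySilverman.Main
import Fermat.Agent.HindrySilverman.Example
import Fermat.Agent.LangNeron.Siegel

/-!
# Lang's height conjecture in semistable families

Over a number field the Néron–Tate height of a specialised point is asymptotically the height of the
point times `h (t)`, and that is at least `(m + 6) / 26235`, while `h (D (t))` is at most
`12 m h (t) + O (1)`.
-/

set_option autoImplicit false
set_option linter.unusedSectionVars false
set_option linter.style.haveILetI false

noncomputable section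

open WeierstrassCurve Polynomial Height OnePoint Filter Topology FA.SzpiroLine
open FA.ArithmeticDynamics FA.CallSilverman
open FA.NeronSpecialisation (genW genW_isElliptic fibreW fibreW_isElliptic specW constMap genW_map
  num_constMap denom_constMap)
open FA.FunctionFieldRank (pointMap pointMap_some pointMap_injective)
open scoped Classical

namespace FA.HindrySilverman

/-- Coprime coefficients make the pair semistable. -/
theorem semistable_of_coprime {k : Type*} [Field k] [CharZero k] [IsAlgClosed k] {A B : k[X]}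
    {m : ℕ} (hm : 0 < m) (hA : A.natDegree ≤ 4 * m) (hB : B.natDegree ≤ 6 * m)
    (hinf : A.natDegree = 4 * m ∨ B.natDegree = 6 * m) (hc : IsCoprime A B) :
    Semistable A B m := by
  have hne : ∀ t : k, ¬(A.IsRoot t ∧ B.IsRoot t) := fun t ⟨h1, h2⟩ => by
    obtain ⟨a, b, hab⟩ := hc
    simpa [h1.eq_zero, h2.eq_zero] using congrArg (Polynomial.eval t) hab
  have hfin : ∀ t : k, (A ^ 3 - B ^ 2).IsRoot t → ¬A.IsRoot t := fun t ht hAt => by
    refine hne t ⟨hAt, ?_⟩
    have := ht.eq_zero
    rw [eval_sub, eval_pow, eval_pow, hAt.eq_zero, zero_pow three_ne_zero, zero_sub, neg_eq_zero]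
      at this
    exact eq_zero_of_pow_eq_zero this
  have hdeg : A.natDegree < 4 * m → (A ^ 3 - B ^ 2).natDegree = 12 * m := fun h => by
    rw [natDegree_sub_eq_right_of_natDegree_lt (by rw [natDegree_pow, natDegree_pow]; omega),
      natDegree_pow]
    omega
  have hD : A ^ 3 - B ^ 2 ≠ 0 := fun e => by
    rcases Nat.eq_zero_or_pos A.natDegree with h0 | h0
    · have := hdeg (by omega)
      rw [e, natDegree_zero] at this
      omega
    · obtain ⟨t, ht⟩ := IsAlgClosed.exists_root A (fun h => by
        have := natDegree_eq_zero_iff_degree_le_zero.2 h.le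
        omega)
      exact hfin t (by rw [e]; simp) ht
  refine ⟨⟨hA, hB, fun h => by omega, fun t h => hne t ⟨dvd_iff_isRoot.1
    ((dvd_pow_self _ (by norm_num : 4 ≠ 0)).trans h.1), dvd_iff_isRoot.1
    ((dvd_pow_self _ (by norm_num : 6 ≠ 0)).trans h.2)⟩⟩, hD, ?_, hfin, fun h => ?_⟩
  · rintro ⟨c, hcD⟩
    rcases Nat.eq_zero_or_pos (A ^ 3 - B ^ 2).natDegree with h0 | h0
    · rcases lt_or_eq_of_le hA with h | h
      · have := hdeg h; omega
      · have h' := congrArg natDegree hcD
        rw [natDegree_pow] at h'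
        have := natDegree_C_mul_le c (A ^ 3 - B ^ 2)
        omega
    · obtain ⟨t, ht⟩ := IsAlgClosed.exists_root (A ^ 3 - B ^ 2) (fun e => by
        have h := natDegree_eq_zero_iff_degree_le_zero.2 e.le
        omega)
      refine hfin t ht ?_
      have := congrArg (Polynomial.eval t) hcD
      rw [eval_pow, eval_mul, ht.eq_zero, mul_zero] at this
      exact eq_zero_of_pow_eq_zero this
  · by_contra hne'
    have := hdeg (by omega)
    omega

theorem map_shortW {k k' : Type*} [Field k] [Field k'] (ψ : k →+* k') (A B : k[X]) :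
    (shortW A B).map (mapRingHom ψ) = shortW (A.map ψ) (B.map ψ) := by
  ext <;> simp [shortW, WeierstrassCurve.map]

/-- The height does not depend on the constants. -/
theorem genHgt_map {k k' : Type*} [Field k] [Field k'] (ψ : k →+* k') {W : WeierstrassCurve k[X]}
    {W' : WeierstrassCurve k'[X]} (hG : (genW W).map (constMap ψ) = genW W')
    [(genW W).IsElliptic] [(genW W').IsElliptic] (P : (genW W).toAffine.Point) :
    genHgt W' (pointMap (constMap ψ) hG P) = genHgt W P := by
  unfold genHgt
  congr 1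
  funext i
  rw [← map_nsmul]
  congr 2
  rcases (2 ^ i) • P with _ | ⟨x, y, h⟩
  · rw [← Affine.Point.zero_def, map_zero, Affine.Point.xRep_zero, Affine.Point.xRep_zero]
    simp [toPoint, ptDeg_infty]
  · rw [pointMap_some, Affine.Point.xRep_some, Affine.Point.xRep_some]
    simp [toPoint, ptDeg_coe, num_constMap, denom_constMap, natDegree_map]

section Field

variable {k : Type*} [Field k] [CharZero k] {A B : k[X]} {m : ℕ} (hm : 0 < m)
  (hA : A.natDegree ≤ 4 * m) (hB : B.natDegree ≤ 6 * m)
  (hinf : A.natDegree = 4 * m ∨ B.natDegree = 6 * m) (hc : IsCoprime A B)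
include hm hA hB hinf hc

theorem semistable_map :
    Semistable (A.map (algebraMap k (AlgebraicClosure k)))
      (B.map (algebraMap k (AlgebraicClosure k))) m := by
  have hc' : IsCoprime (A.map (algebraMap k (AlgebraicClosure k)))
      (B.map (algebraMap k (AlgebraicClosure k))) := by
    obtain ⟨a, b, hab⟩ := hc
    exact ⟨a.map _, b.map _, by rw [← Polynomial.map_mul, ← Polynomial.map_mul,
      ← Polynomial.map_add, hab, Polynomial.map_one]⟩
  refine semistable_of_coprime hm ?_ ?_ ?_ hc'
  · rwa [natDegree_map]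
  · rwa [natDegree_map]
  · rwa [natDegree_map, natDegree_map]

theorem shortW_Δ_ne_of_coprime : (shortW A B).Δ ≠ 0 := fun e => by
  have h := shortW_Δ_ne (semistable_map hm hA hB hinf hc)
  rw [← map_shortW, WeierstrassCurve.map_Δ, e, map_zero] at h
  exact h rfl

/-- **The lower bound over any field of constants.** -/
theorem height_ge_of_coprime [(genW (shortW A B)).IsElliptic]
    {P : (genW (shortW A B)).toAffine.Point} (hP : ¬IsOfFinAddOrder P) :
    ((m : ℝ) + 6) / 26235 ≤ genHgt (shortW A B) P := by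
  have hS := semistable_map hm hA hB hinf hc
  set ψ := algebraMap k (AlgebraicClosure k)
  haveI := genW_isElliptic (shortW_Δ_ne hS)
  have hG : (genW (shortW A B)).map (constMap ψ) = genW (shortW (A.map ψ) (B.map ψ)) := by
    rw [← map_shortW]; exact genW_map ψ _
  rw [← genHgt_map ψ hG P]
  refine height_ge hS fun hT => hP ?_
  obtain ⟨n, hn, hn'⟩ := isOfFinAddOrder_iff_nsmul_eq_zero.1 hT
  refine isOfFinAddOrder_iff_nsmul_eq_zero.2 ⟨n, hn, pointMap_injective _ hG ?_⟩
  rw [map_nsmul, hn', map_zero]

end Field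

section NumberField

variable {K : Type*} [Field K] [NumberField K] {A B : K[X]} {m : ℕ} (hm : 0 < m)
  (hA : A.natDegree ≤ 4 * m) (hB : B.natDegree ≤ 6 * m)
  (hinf : A.natDegree = 4 * m ∨ B.natDegree = 6 * m) (hc : IsCoprime A B)
include hm hA hB hinf hc

/-- The height of the discriminant of a fibre. -/
theorem exists_disc_height_le :
    ∃ C : ℝ, ∀ t : K, logHeight₁ ((A ^ 3 - B ^ 2).eval t) ≤ 12 * (m : ℝ) * logHeight₁ t + C := by
  obtain ⟨C, hC⟩ := exists_height_specPt
    (algebraMap K[X] (RatFunc K) (A ^ 3 - B ^ 2) : OnePoint (RatFunc K))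
  refine ⟨C, fun t => ?_⟩
  have h := (abs_le.1 (hC t)).2
  rw [specPt_coe, ptDeg_coe, RatFunc.num_algebraMap, RatFunc.denom_algebraMap, natDegree_one,
    eval_one, pointHeight_coe] at h
  rw [show toPoint ![(A ^ 3 - B ^ 2).eval t, (1 : K)] = (((A ^ 3 - B ^ 2).eval t : K) : OnePoint K)
    by simp [toPoint], pointHeight_coe] at h
  have hd : ((max (A ^ 3 - B ^ 2).natDegree 0 : ℕ) : ℝ) ≤ 12 * (m : ℝ) := by
    have : (A ^ 3 - B ^ 2).natDegree ≤ 12 * m := by
      refine (natDegree_sub_le _ _).trans (max_le ?_ ?_) <;> rw [natDegree_pow] <;> omega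
    exact_mod_cast (show max (A ^ 3 - B ^ 2).natDegree 0 ≤ 12 * m by omega)
  have h0 : (0 : ℝ) ≤ logHeight₁ t := by
    rw [← pointHeight_coe]; exact pointHeight_nonneg _
  have := mul_le_mul_of_nonneg_right hd h0
  linarith

variable [(genW (shortW A B)).IsElliptic]

/-- **Lang's conjecture in the family.** -/
theorem lang_family {P : (genW (shortW A B)).toAffine.Point} (hP : ¬IsOfFinAddOrder P) :
    {t : K | ¬∃ ht : (fibreW (shortW A B) t).Δ ≠ 0,
      (∀ f : (fibreW (shortW A B) t).toAffine.Point → ℝ,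
        (∃ C, ∀ R, |f R - logHeight R.xRep| ≤ C) → (∀ R, f (2 • R) = 4 * f R) →
          logHeight₁ ((A ^ 3 - B ^ 2).eval t) / 314820 ≤ f (specW (shortW A B) ht P)) ∧
        ¬IsOfFinAddOrder (specW (shortW A B) ht P)}.Finite := by
  have hW := shortW_Δ_ne_of_coprime hm hA hB hinf hc
  set l := genHgt (shortW A B) P
  have hl : ((m : ℝ) + 6) / 26235 ≤ l := height_ge_of_coprime hm hA hB hinf hc hP
  obtain ⟨C, hC⟩ := exists_disc_height_le hm hA hB hinf hc
  have h1 : ∀ᶠ t : K in cofinite,
      ((m : ℝ) + 3) / 26235 < hgtAt (shortW A B) t P / pointHeight (t : OnePoint K) :=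
    (tendsto_hgtAt hW P).2.eventually (eventually_gt_nhds (lt_of_lt_of_le (by linarith) hl))
  have h2 : ∀ᶠ t : K in cofinite, max 1 C ≤ pointHeight (t : OnePoint K) :=
    tendsto_height_cofinite.eventually (eventually_ge_atTop _)
  refine (eventually_cofinite.1
    ((h1.and h2).and (finite_bad_fibres hW).eventually_cofinite_notMem)).subset ?_
  rintro t ht ⟨⟨hlt, hbig⟩, hgood⟩
  refine ht ⟨hgood, ?_⟩
  have ht' : (fibreW (shortW A B) t).Δ ≠ 0 := hgood
  haveI := fibreW_isElliptic ht'
  set h := pointHeight (t : OnePoint K) with hh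
  have hh1 : 1 ≤ h := (le_max_left _ _).trans hbig
  rw [lt_div_iff₀ (by linarith)] at hlt
  have hm' : (0 : ℝ) ≤ m := Nat.cast_nonneg m
  have hpos : 0 < hgtAt (shortW A B) t P := lt_of_le_of_lt (by positivity) hlt
  refine ⟨fun f hf h2f => ?_, fun hT => ?_⟩
  · rw [hgtAt_eq ht' hf h2f]
    have h3 := hC t
    rw [← pointHeight_coe t, ← hh] at h3
    have h4 := (le_max_right _ _).trans hbig
    linarith
  · obtain ⟨n, hn, hn'⟩ := isOfFinAddOrder_iff_nsmul_eq_zero.1 hT
    have e : hgtAt (shortW A B) t P = dblHgt (specW (shortW A B) ht' P) :=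
      (hgtAt_eq ht' exists_dblHgt_bound dblHgt_double P).symm
    have hpar : ∀ R S : (fibreW (shortW A B) t).toAffine.Point,
        dblHgt (R + S) + dblHgt (R - S) = 2 * (dblHgt R + dblHgt S) :=
      fun R S => dblHgt_parallelogram R S
    have h5 := FA.Height.map_nsmul_of_law hpar n (specW (shortW A B) ht' P)
    rw [hn', FA.Height.map_zero_of_law hpar, ← e] at h5
    have hn0 : (0 : ℝ) < (n : ℝ) ^ 2 := by positivity
    nlinarith

end NumberField

/-- The example over `ℚ` is a point of infinite order. -/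
theorem not_torsion_rat
    [(genW (shortW (1 : ℚ[X]) (-6 * exS ℚ ^ 2))).IsElliptic]
    {h : (genW (shortW (1 : ℚ[X]) (-6 * exS ℚ ^ 2))).toAffine.Nonsingular 0
      (algebraMap ℚ[X] (RatFunc ℚ) (18 * exS ℚ))} :
    ¬IsOfFinAddOrder (Affine.Point.some _ _ h) := by
  intro hT
  set ψ := algebraMap ℚ (AlgebraicClosure ℚ)
  have hG : (genW (shortW (1 : ℚ[X]) (-6 * exS ℚ ^ 2))).map (constMap ψ) =
      genW (shortW (1 : (AlgebraicClosure ℚ)[X]) (-6 * exS (AlgebraicClosure ℚ) ^ 2)) := by
    rw [genW_map ψ, map_shortW]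
    simp [exS]
  haveI := genW_isElliptic
    (shortW_Δ_ne (semistable_example (k := AlgebraicClosure ℚ)))
  have hT' := (pointMap (constMap ψ) hG).isOfFinAddOrder hT
  rw [pointMap_some] at hT'
  refine not_torsion_example (k := AlgebraicClosure ℚ) ?_
  convert hT' using 2
  · rfl
  · exact (map_zero (constMap ψ)).symm
  · rw [FA.NeronSpecialisation.constMap_algebraMap]
    simp [exS]

end FA.HindrySilverman
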