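import Mathlib.Data.ZMod.Basic
import Mathlib.Data.Real.Basic
import Mathlib.Algebra.BigOperators.Ring.Finset
import Mathlib.Algebra.BigOperators.Field
import Mathlib.Tactic.Ring
import Mathlib.Tactic.LinearCombination
import Mathlib.Tactic.FieldSimp
import Mathlib.Tactic.Positivity
import Mathlib.Tactic.Linarith

/-!
# The correction kernel on a cycle of `n` components

The kernel `c (n - c) / n` on `ℤ / n` is its mean `(n² - 1) / (6 n)` minus a positive multiple of an
autocorrelation, so its mean over the differences of any `N` residues is at most that number.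
-/

set_option autoImplicit false

noncomputable section

open scoped BigOperators

namespace FA.HindrySilverman

/-- The local correction of the component `c` on a cycle of `n`. -/
def kern (n : ℕ) (c : ℤ) : ℝ := ((c % n : ℤ) : ℝ) * ((n : ℝ) - (c % n : ℤ)) / n

theorem kern_zero (n : ℕ) : kern n 0 = 0 := by simp [kern]

theorem kern_add_mul (n : ℕ) (c i : ℤ) : kern n (c + n * i) = kern n c := by
  simp only [kern, Int.add_mul_emod_self_left]

theorem kern_neg (n : ℕ) (c : ℤ) : kern n (-c) = kern n c := by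
  rcases eq_or_ne (c % (n : ℤ)) 0 with h | h
  · simp only [kern, h]
    rw [Int.neg_emod_eq_sub_emod, Int.sub_emod, h, sub_zero, Int.emod_emod, Int.emod_self]
  · have hd : ¬(n : ℤ) ∣ c := fun hd => h (Int.emod_eq_zero_of_dvd hd)
    simp only [kern, Int.neg_emod, if_neg hd, Int.natAbs_natCast]
    push_cast
    ring

theorem kern_of_le {n i : ℕ} (h : 2 * i ≤ n) :
    kern n i = (i : ℝ) * ((n : ℝ) - i) / n := by
  rcases eq_or_ne n 0 with rfl | hn
  · simp [kern]
  have e : (i : ℤ) % (n : ℤ) = i := Int.emod_eq_of_lt (by positivity) (by omega)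
  simp [kern, e]

theorem kern_nonneg (n : ℕ) (c : ℤ) : 0 ≤ kern n c := by
  rcases eq_or_ne n 0 with rfl | hn
  · simp [kern]
  have h1 : (0 : ℝ) ≤ ((c % n : ℤ) : ℝ) := Int.cast_nonneg (Int.emod_nonneg _ (by exact_mod_cast hn))
  have h2 : ((c % n : ℤ) : ℝ) ≤ (n : ℝ) := by
    exact_mod_cast (Int.emod_lt_of_pos c (by omega : (0 : ℤ) < n)).le
  exact div_nonneg (mul_nonneg h1 (by linarith)) (Nat.cast_nonneg n)

theorem kern_le (n : ℕ) (c : ℤ) : kern n c ≤ n := by
  rcases eq_or_ne n 0 with rfl | hn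
  · simp [kern]
  have hn' : (0 : ℝ) < n := by exact_mod_cast Nat.pos_of_ne_zero hn
  have h1 : (0 : ℝ) ≤ ((c % n : ℤ) : ℝ) := Int.cast_nonneg (Int.emod_nonneg _ (by exact_mod_cast hn))
  have h2 : ((c % n : ℤ) : ℝ) ≤ (n : ℝ) := by
    exact_mod_cast (Int.emod_lt_of_pos c (by omega : (0 : ℤ) < n)).le
  rw [kern, div_le_iff₀ hn']
  nlinarith

theorem sum_range_sub_sq (N : ℕ) (μ : ℝ) :
    ∑ t ∈ Finset.range N, ((t : ℝ) - μ) ^ 2 =
      (N : ℝ) * (N - 1) * (2 * N - 1) / 6 - μ * N * (N - 1) + N * μ ^ 2 := by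
  induction N with
  | zero => simp
  | succ N ih => rw [Finset.sum_range_succ, ih]; push_cast; ring

theorem sum_range_sub (N : ℕ) (μ : ℝ) :
    ∑ t ∈ Finset.range N, ((t : ℝ) - μ) = (N : ℝ) * (N - 1) / 2 - N * μ := by
  induction N with
  | zero => simp
  | succ N ih => rw [Finset.sum_range_succ, ih]; push_cast; ring

variable {n : ℕ} [NeZero n]

/-- The centred residue. -/
def cen (t : ZMod n) : ℝ := (t.val : ℝ) - ((n : ℝ) - 1) / 2

/-- Its autocorrelation. -/
def corr (c : ZMod n) : ℝ := ∑ t, cen t * cen (t + c)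

theorem sum_val (f : ℕ → ℝ) : ∑ t : ZMod n, f t.val = ∑ i ∈ Finset.range n, f i := by
  refine Finset.sum_bij (fun t _ => t.val) (fun t _ => Finset.mem_range.2 (ZMod.val_lt t))
    (fun a _ b _ h => ZMod.val_injective n h) (fun b hb => ⟨(b : ZMod n), Finset.mem_univ _, ?_⟩)
    fun t _ => rfl
  rw [ZMod.val_natCast, Nat.mod_eq_of_lt (Finset.mem_range.1 hb)]

theorem sum_cen : ∑ t : ZMod n, cen t = 0 := by
  unfold cen
  rw [sum_val (fun i => (i : ℝ) - ((n : ℝ) - 1) / 2), sum_range_sub]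
  ring

theorem cen_add_one (u : ZMod n) : cen (u + 1) - cen u = 1 - if u = -1 then (n : ℝ) else 0 := by
  have hn : 0 < n := Nat.pos_of_ne_zero (NeZero.ne n)
  have hu : u + 1 = ((u.val + 1 : ℕ) : ZMod n) := by push_cast [ZMod.natCast_zmod_val]; rfl
  have hlt : u.val + 1 ≤ n := ZMod.val_lt u
  rcases hlt.lt_or_eq with h | h
  · have hne : u ≠ -1 := fun e => by
      have h0 : ((u.val + 1 : ℕ) : ZMod n) = 0 := by rw [← hu, e, neg_add_cancel]
      have := congrArg ZMod.val h0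
      rw [ZMod.val_natCast, Nat.mod_eq_of_lt h, ZMod.val_zero] at this
      omega
    rw [if_neg hne, cen, cen, hu, ZMod.val_natCast, Nat.mod_eq_of_lt h]
    push_cast
    ring
  · have he : u = -1 := eq_neg_of_add_eq_zero_left (by rw [hu, h, ZMod.natCast_self])
    have h' : (u.val : ℝ) + 1 = n := by exact_mod_cast h
    rw [if_pos he, cen, cen, hu, h, ZMod.natCast_self, ZMod.val_zero]
    push_cast
    linarith

theorem corr_succ {c : ℕ} (hc : c + 1 ≤ n) :
    corr ((c + 1 : ℕ) : ZMod n) - corr (c : ZMod n) =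
      -(n : ℝ) * (((n : ℝ) - 1) / 2 - c) := by
  have e : corr ((c + 1 : ℕ) : ZMod n) - corr (c : ZMod n) =
      ∑ t : ZMod n, cen t * (1 - if t + (c : ZMod n) = -1 then (n : ℝ) else 0) := by
    rw [corr, corr, ← Finset.sum_sub_distrib]
    refine Finset.sum_congr rfl fun t _ => ?_
    rw [← cen_add_one, Nat.cast_succ, ← add_assoc]
    ring
  have hval : ((-1 - (c : ZMod n)) : ZMod n) = ((n - 1 - c : ℕ) : ZMod n) := by
    rw [Nat.cast_sub (by omega : c ≤ n - 1), Nat.cast_sub (by omega : 1 ≤ n), ZMod.natCast_self]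
    simp
  rw [e]
  simp only [mul_sub, mul_one, mul_ite, mul_zero, Finset.sum_sub_distrib, sum_cen, zero_sub,
    ← eq_sub_iff_add_eq]
  rw [Finset.sum_ite_eq', if_pos (Finset.mem_univ _), hval, cen, ZMod.val_natCast,
    Nat.mod_eq_of_lt (by omega), Nat.cast_sub (by omega : c ≤ n - 1),
    Nat.cast_sub (by omega : 1 ≤ n)]
  push_cast
  ring

theorem corr_natCast {c : ℕ} (hc : c ≤ n) :
    corr (c : ZMod n) = (n : ℝ) * ((n : ℝ) ^ 2 - 1) / 12 - (n : ℝ) * c * ((n : ℝ) - c) / 2 := by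
  induction c with
  | zero =>
    simp only [corr, Nat.cast_zero, add_zero, ← sq]
    unfold cen
    rw [sum_val (fun i => ((i : ℝ) - ((n : ℝ) - 1) / 2) ^ 2), sum_range_sub_sq]
    ring
  | succ c ih =>
    have h := corr_succ hc
    rw [ih (by omega)] at h
    push_cast at h ⊢
    linear_combination h

theorem kern_eq (c : ℤ) :
    kern n c = ((n : ℝ) ^ 2 - 1) / (6 * n) - 2 * corr (c : ZMod n) / (n : ℝ) ^ 2 := by
  have hn : (n : ℝ) ≠ 0 := Nat.cast_ne_zero.2 (NeZero.ne n)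
  have hn' : (n : ℤ) ≠ 0 := by exact_mod_cast NeZero.ne n
  obtain ⟨r, hr⟩ := Int.eq_ofNat_of_zero_le (Int.emod_nonneg c hn')
  have hlt : r ≤ n := by
    have := Int.emod_lt_of_pos c (show (0 : ℤ) < n by have := NeZero.ne n; omega)
    omega
  have e : (c : ZMod n) = (r : ZMod n) := by
    rw [← ZMod.intCast_mod c n, hr, Int.cast_natCast]
  rw [kern, e, corr_natCast hlt, hr, Int.cast_natCast]
  field_simp
  ring

theorem corr_pos_def {N : ℕ} (x : Fin N → ZMod n) :
    0 ≤ ∑ a, ∑ b, corr (x a - x b) := by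
  have e : ∀ a b, corr (x a - x b) = ∑ t, cen (t + x b) * cen (t + x a) := fun a b => by
    rw [corr, ← Equiv.sum_comp (Equiv.addRight (x b))]
    refine Finset.sum_congr rfl fun t _ => ?_
    rw [Equiv.coe_addRight, add_assoc, add_sub_cancel]
  simp only [e]
  calc (0 : ℝ) ≤ ∑ t, (∑ a, cen (t + x a)) ^ 2 := Finset.sum_nonneg fun t _ => sq_nonneg _
    _ = ∑ a, ∑ b, ∑ t, cen (t + x b) * cen (t + x a) := by
      rw [Finset.sum_congr rfl fun a _ => Finset.sum_comm, Finset.sum_comm]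
      refine Finset.sum_congr rfl fun t _ => ?_
      simp only [sq, Finset.sum_mul, Finset.mul_sum]

omit [NeZero n]

/-- **The mean of the kernel over the differences of `N` multiples.** -/
theorem sum_kern_le (n : ℕ) (c : ℤ) (N : ℕ) :
    ∑ a : Fin N, ∑ b : Fin N, kern n (((a : ℤ) - b) * c) ≤
      (N : ℝ) ^ 2 * (((n : ℝ) ^ 2 - 1) / (6 * n)) := by
  rcases eq_or_ne n 0 with rfl | hn
  · simp [kern]
  have : NeZero n := ⟨hn⟩
  have h : ∀ a b : Fin N, kern n (((a : ℤ) - b) * c) = ((n : ℝ) ^ 2 - 1) / (6 * n) -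
      2 * corr ((((a : ℤ) * c : ℤ) : ZMod n) - (((b : ℤ) * c : ℤ) : ZMod n)) / (n : ℝ) ^ 2 :=
    fun a b => by rw [kern_eq, sub_mul, Int.cast_sub]
  simp only [h, Finset.sum_sub_distrib, Finset.sum_const, Finset.card_univ, Fintype.card_fin,
    nsmul_eq_mul, ← Finset.sum_div, ← Finset.mul_sum]
  have h0 := corr_pos_def (fun a : Fin N => (((a : ℤ) * c : ℤ) : ZMod n))
  have : 0 ≤ 2 * (∑ a : Fin N, ∑ b : Fin N,
      corr ((((a : ℤ) * c : ℤ) : ZMod n) - (((b : ℤ) * c : ℤ) : ZMod n))) / (n : ℝ) ^ 2 := by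
    positivity
  linear_combination this

/-- The sum of the squared differences. -/
theorem sum_sq_diff (N : ℕ) :
    ∑ a : Fin N, ∑ b : Fin N, ((a : ℝ) - b) ^ 2 = (N : ℝ) ^ 2 * ((N : ℝ) ^ 2 - 1) / 6 := by
  have h : ∀ a : Fin N, ∑ b : Fin N, ((a : ℝ) - b) ^ 2 =
      (N : ℝ) * (N - 1) * (2 * N - 1) / 6 - (a : ℝ) * N * (N - 1) + N * (a : ℝ) ^ 2 := fun a => by
    rw [← sum_range_sub_sq, ← Fin.sum_univ_eq_sum_range (fun t => ((t : ℝ) - (a : ℕ)) ^ 2)]
    exact Finset.sum_congr rfl fun b _ => by ring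
  simp only [h, Finset.sum_add_distrib, Finset.sum_sub_distrib, ← Finset.sum_mul, ← Finset.mul_sum,
    Finset.sum_const, Finset.card_univ, Fintype.card_fin, nsmul_eq_mul]
  rw [Fin.sum_univ_eq_sum_range (fun t => (t : ℝ)),
    Fin.sum_univ_eq_sum_range (fun t => (t : ℝ) ^ 2)]
  have h1 := sum_range_sub N 0
  have h2 := sum_range_sub_sq N 0
  simp only [sub_zero] at h1 h2
  rw [h1, h2]
  ring

end FA.HindrySilverman
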