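import Fermat.Agent.HindrySilverman.Local
import Fermat.Agent.HindrySilverman.Kernel
import Fermat.Agent.CoxParry.Global
import Fermat.Agent.LangNeron.DegHeight

/-!
# The height of a section of a semistable elliptic surface over the line

For `y² = x³ - 27 A x - 54 B` semistable of level `m` the height is `2 m` plus the pole degree of the
abscissa minus the corrections `i (n - i) / n` of the singular fibres.
-/

set_option autoImplicit false
set_option linter.unusedSectionVars false
set_option linter.style.haveILetI false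

noncomputable section

open WeierstrassCurve Polynomial FA.Local FA.LevinTorsion FA.SzpiroLine
open FA.ArithmeticDynamics FA.CallSilverman
open FA.NeronSpecialisation (genW genW_isElliptic)
open FA.FunctionFieldRank (pointMap pointMap_some pointMap_injective)
open scoped Classical

namespace FA.HindrySilverman

variable {k : Type*} [Field k]

/-- The order of `z`, scaled by the weight `d`, at a point of the line (`none`: infinity). -/
def placeOrd (d : ℕ) : Option k → RatFunc k → ℤ
  | some t, z => (z.num.rootMultiplicity t : ℤ) - z.denom.rootMultiplicity t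
  | none, z => (d : ℤ) - z.intDegree

/-- The order of the discriminant at a point of the line. -/
def discOrd (A B : k[X]) (m : ℕ) : Option k → ℕ
  | some t => (A ^ 3 - B ^ 2).rootMultiplicity t
  | none => 12 * m - (A ^ 3 - B ^ 2).natDegree

/-- The points of the line with a singular fibre. -/
def badPlaces (A B : k[X]) (m : ℕ) : Finset (Option k) :=
  (insert none ((A ^ 3 - B ^ 2).roots.toFinset.map Function.Embedding.some)).filter
    fun o => 0 < discOrd A B m o

/-- The equation over `k[T]`. -/
def shortW (A B : k[X]) : WeierstrassCurve k[X] := ⟨0, 0, 0, -27 * A, -54 * B⟩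

theorem genW_shortW (A B : k[X]) : genW (shortW A B) = shortEq A B := by
  ext <;> simp only [genW, shortW, shortEq, WeierstrassCurve.map, map_zero, map_mul, map_neg,
    map_ofNat]

/-- The component met by a point, up to sign: the order of the ordinate, at most half of `n`,
where both the ordinate and the derivative in `x` vanish. -/
def component (A B : k[X]) (m : ℕ) (o : Option k) (x y : RatFunc k) : ℕ :=
  if 3 * x ^ 2 - 27 * algebraMap k[X] (RatFunc k) A = 0 ∨
      0 < placeOrd (4 * m) o (3 * x ^ 2 - 27 * algebraMap k[X] (RatFunc k) A) then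
    min (placeOrd (3 * m) o y).toNat (discOrd A B m o / 2)
  else 0

/-- The correction `i (n - i) / n`. -/
def compCorr (A B : k[X]) (m : ℕ) (o : Option k) (x y : RatFunc k) : ℝ :=
  (component A B m o x y : ℝ) * ((discOrd A B m o : ℝ) - component A B m o x y) /
    (discOrd A B m o : ℝ)

/-- `2 m` plus the pole degree of the abscissa. -/
def poleDeg (m : ℕ) (x : RatFunc k) : ℕ := max (2 * m + x.denom.natDegree) x.num.natDegree

/-- The sum of the corrections. -/
def corrSum (A B : k[X]) (m : ℕ) (x y : RatFunc k) : ℝ :=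
  ∑ o ∈ badPlaces A B m, compCorr A B m o x y

/-- The pole order at a point of the line less the correction. -/
def placeHgt (A B : k[X]) (m : ℕ) (o : Option k) (x y : RatFunc k) : ℝ :=
  ((-placeOrd (2 * m) o x).toNat : ℝ) - compCorr A B m o x y

theorem placeOrd_poly_nonneg {p : k[X]} {d : ℕ} (hp : p.natDegree ≤ d) (o : Option k) :
    0 ≤ placeOrd d o (algebraMap k[X] (RatFunc k) p) := by
  cases o with
  | none => simp only [placeOrd, RatFunc.intDegree_polynomial]; omega
  | some t =>
    simp [placeOrd, RatFunc.num_algebraMap, RatFunc.denom_algebraMap,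
      rootMultiplicity_eq_zero]

theorem toNat_pole [IsAlgClosed k] (d : ℕ) (x : RatFunc k) (t : k) :
    (-placeOrd d (some t) x).toNat = x.denom.rootMultiplicity t := by
  simp only [placeOrd]
  by_cases hd : x.denom.IsRoot t
  · have hn : ¬x.num.IsRoot t := fun hn => by
      obtain ⟨u, w, huw⟩ := RatFunc.isCoprime_num_denom x
      simpa [IsRoot.def.1 hn, IsRoot.def.1 hd] using congrArg (Polynomial.eval t) huw
    rw [rootMultiplicity_eq_zero hn]
    omega
  · rw [rootMultiplicity_eq_zero hd]
    omega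

variable [CharZero k]

theorem sum_rootMultiplicity [IsAlgClosed k] {p : k[X]} {S : Finset k}
    (h : p.roots.toFinset ⊆ S) : ∑ t ∈ S, p.rootMultiplicity t = p.natDegree := by
  rw [natDegree_eq_sum_roots p]
  exact (Finset.sum_subset h fun t _ ht => by
    rw [← count_roots, Multiset.count_eq_zero]
    exact fun h' => ht (Multiset.mem_toFinset.2 h')).symm

/-- A valuation at a point of the line, with the scaling element. -/
theorem exists_place (m : ℕ) (o : Option k) {L : Type*} [Field L] (ι : RatFunc k →+* L) :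
    ∃ (V : ValuationSubring L) (q : V.ValueGroup) (u : RatFunc k), 0 < q ∧ q < 1 ∧ u ≠ 0 ∧
      (∀ n : ℤ, n ≠ 0 → V.valuation (n : L) = 1) ∧
      ∀ (d : ℕ) (z : RatFunc k), z ≠ 0 →
        V.valuation (ι z / ι u ^ d) = q ^ placeOrd (d * m) o z := by
  set g := algebraMap k[X] (RatFunc k)
  cases o with
  | some t =>
    obtain ⟨V, h1, h2, h3⟩ := exists_at ι t
    have hq : 0 < V.valuation (ι (g (X - C t))) :=
      V.valuation.pos_iff.2 ((map_ne_zero ι).2 (RatFunc.algebraMap_ne_zero (X_sub_C_ne_zero t)))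
    refine ⟨V, _, 1, hq, h1, one_ne_zero, h3, fun d z hz => ?_⟩
    rw [map_one, one_pow, div_one]
    conv_lhs => rw [← RatFunc.num_div_denom z]
    rw [map_div₀, map_div₀, h2 _ (RatFunc.num_ne_zero hz), h2 _ z.denom_ne_zero]
    simp only [placeOrd, zpow_sub₀ hq.ne', zpow_natCast]
    rfl
  | none =>
    obtain ⟨V, h1, h2, h3⟩ := exists_infty ι
    have hX : (RatFunc.X : RatFunc k) ≠ 0 := RatFunc.X_ne_zero
    set q := V.valuation (ι (RatFunc.X : RatFunc k)⁻¹) with hqdef
    have hq : 0 < q := V.valuation.pos_iff.2 ((map_ne_zero ι).2 (inv_ne_zero hX))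
    have hvX : V.valuation (ι (RatFunc.X : RatFunc k)) = q⁻¹ := by
      rw [hqdef, map_inv₀, map_inv₀, inv_inv]
    have hp : ∀ p : k[X], p ≠ 0 → V.valuation (ι (g p)) = q ^ (-(p.natDegree : ℤ)) := fun p hp => by
      have h := h2 p p.natDegree hp le_rfl
      rw [Nat.sub_self, pow_zero, map_div₀, map_div₀, map_pow, map_pow, hvX, inv_pow,
        div_inv_eq_mul] at h
      rw [zpow_neg, zpow_natCast]
      exact eq_inv_of_mul_eq_one_left h
    refine ⟨V, q, RatFunc.X ^ m, hq, h1, pow_ne_zero _ hX, h3, fun d z hz => ?_⟩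
    conv_lhs => rw [← RatFunc.num_div_denom z]
    rw [map_div₀, map_div₀, map_div₀, hp _ (RatFunc.num_ne_zero hz), hp _ z.denom_ne_zero,
      map_pow, map_pow, map_pow, hvX, inv_pow, inv_pow, div_inv_eq_mul, ← zpow_natCast,
      ← zpow_natCast, ← zpow_mul, ← zpow_sub₀ hq.ne', ← zpow_add₀ hq.ne']
    congr 1
    simp only [placeOrd, RatFunc.intDegree]
    push_cast
    ring

section Semistable

variable [IsAlgClosed k] {A B : k[X]} {m : ℕ}

/-- The hypotheses: minimal, semistable at every point of the line, not a constant invariant. -/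
structure Semistable (A B : k[X]) (m : ℕ) : Prop where
  minimal : Minimal A B m
  disc_ne : A ^ 3 - B ^ 2 ≠ 0
  nonconst : ¬∃ c : k, A ^ 3 = C c * (A ^ 3 - B ^ 2)
  finite : ∀ t : k, (A ^ 3 - B ^ 2).IsRoot t → ¬A.IsRoot t
  infinite : (A ^ 3 - B ^ 2).natDegree < 12 * m → A.natDegree = 4 * m

variable (hS : Semistable A B m)
include hS

theorem shortW_Δ_ne : (shortW A B).Δ ≠ 0 := fun e => by
  have h : (shortEq A B).Δ = 0 := by
    rw [← genW_shortW, genW, WeierstrassCurve.map_Δ, e, map_zero]
  rw [Δ_shortEq] at h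
  refine mul_ne_zero ?_ (RatFunc.algebraMap_ne_zero hS.disc_ne) h
  norm_num

theorem natDegree_disc_le : (A ^ 3 - B ^ 2).natDegree ≤ 12 * m := by
  refine (natDegree_sub_le _ _).trans (max_le ?_ ?_) <;> rw [natDegree_pow]
  · linarith [hS.minimal.1]
  · linarith [hS.minimal.2.1]

theorem placeOrd_A {o : Option k} (ho : 0 < discOrd A B m o) :
    placeOrd (4 * m) o (algebraMap k[X] (RatFunc k) A) = 0 := by
  cases o with
  | some t =>
    have h := hS.finite t ((rootMultiplicity_pos hS.disc_ne).1 ho)
    simp [placeOrd, RatFunc.num_algebraMap, RatFunc.denom_algebraMap, rootMultiplicity_eq_zero h]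
  | none =>
    simp only [discOrd] at ho
    simp [placeOrd, hS.infinite (by omega)]

theorem placeOrd_disc (o : Option k) :
    placeOrd (12 * m) o (algebraMap k[X] (RatFunc k) (A ^ 3 - B ^ 2)) = discOrd A B m o := by
  cases o with
  | some t =>
    simp only [placeOrd, discOrd, RatFunc.num_algebraMap, RatFunc.denom_algebraMap]
    simp [rootMultiplicity_eq_zero]
  | none =>
    simp only [placeOrd, discOrd, RatFunc.intDegree_polynomial]
    have := natDegree_disc_le hS
    omega

/-- The data of a place: a model over a larger field at a valuation. -/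
theorem exists_local (o : Option k) :
    ∃ (V : ValuationSubring (AlgebraicClosure (RatFunc k))) (q : V.ValueGroup)
      (u : AlgebraicClosure (RatFunc k)),
      (∀ n : ℤ, n ≠ 0 → V.valuation (n : AlgebraicClosure (RatFunc k)) = 1) ∧ 0 < q ∧ q < 1 ∧
      u ≠ 0 ∧
      let j := algebraMap (RatFunc k) (AlgebraicClosure (RatFunc k))
      let a := j (algebraMap k[X] (RatFunc k) A) / u ^ 4
      let b := j (algebraMap k[X] (RatFunc k) B) / u ^ 6
      V.valuation a ≤ 1 ∧ V.valuation b ≤ 1 ∧
        V.valuation (a ^ 3 - b ^ 2) = q ^ discOrd A B m o ∧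
        (0 < discOrd A B m o → V.valuation a = 1) ∧
        (∀ y : RatFunc k, y ≠ 0 → V.valuation (j y / u ^ 3) = q ^ placeOrd (3 * m) o y) ∧
        (∀ x : RatFunc k,
          max 1 (V.valuation (j x / u ^ 2)) * q ^ (-placeOrd (2 * m) o x).toNat = 1) ∧
        ∀ (x y : RatFunc k),
          component A B m o x y = nodeIdx V.valuation (discOrd A B m o) a (j x / u ^ 2)
            (placeOrd (3 * m) o y) := by
  set j := algebraMap (RatFunc k) (AlgebraicClosure (RatFunc k))
  set g := algebraMap k[X] (RatFunc k)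
  obtain ⟨V, q, u, hq0, hq1, hu, hv, hval⟩ := exists_place m o j
  have hsa := zpow_right_strictAnti₀ hq0 hq1
  have hle : ∀ (p : k[X]) (d : ℕ), p.natDegree ≤ d * m →
      V.valuation (j (g p) / j u ^ d) ≤ 1 := fun p d hp => by
    rcases eq_or_ne p 0 with rfl | hp0
    · simp
    · rw [hval d _ (RatFunc.algebraMap_ne_zero hp0), ← zpow_zero q]
      exact hsa.antitone (placeOrd_poly_nonneg hp o)
  refine ⟨V, q, j u, hv, hq0, hq1, (map_ne_zero j).2 hu, hle A 4 hS.minimal.1,
    hle B 6 hS.minimal.2.1, ?_, fun ho => ?_, fun y hy => hval 3 y hy, fun x => ?_,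
    fun x y => ?_⟩
  · rw [show (j (g A) / j u ^ 4) ^ 3 - (j (g B) / j u ^ 6) ^ 2 =
      j (g (A ^ 3 - B ^ 2)) / j u ^ 12 by
        simp only [map_sub, map_pow]; ring, hval 12 _ (RatFunc.algebraMap_ne_zero hS.disc_ne),
      placeOrd_disc hS, zpow_natCast]
  · rw [hval 4 _ (RatFunc.algebraMap_ne_zero (ne_zero_of_nonconst hS.disc_ne hS.nonconst).1),
      placeOrd_A hS ho, zpow_zero]
  · rcases eq_or_ne x 0 with rfl | hx
    · have : (-placeOrd (2 * m) o (0 : RatFunc k)).toNat = 0 := by
        cases o <;> simp [placeOrd, RatFunc.num_zero, RatFunc.denom_zero, rootMultiplicity_eq_zero]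
      simp [this]
    rw [hval 2 x hx]
    set c := placeOrd (2 * m) o x
    rcases le_total c 0 with hc | hc
    · rw [max_eq_right (by rw [← zpow_zero q]; exact hsa.antitone hc), ← zpow_natCast,
        Int.toNat_of_nonneg (neg_nonneg.2 hc), ← zpow_add₀ hq0.ne', add_neg_cancel, zpow_zero]
    · rw [max_eq_left (by rw [← zpow_zero q]; exact hsa.antitone hc),
        show (-c).toNat = 0 by omega, pow_zero, one_mul]
  · rw [component, nodeIdx]
    set f := 3 * x ^ 2 - 27 * g A with hf
    have e : 3 * (j x / j u ^ 2) ^ 2 - 27 * (j (g A) / j u ^ 4) = j f / j u ^ 4 := by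
      rw [hf]; simp only [map_sub, map_mul, map_pow, map_ofNat]; ring
    rw [e]
    refine if_congr ?_ rfl rfl
    rcases eq_or_ne f 0 with hf0 | hf0
    · simp [hf0]
    rw [hval 4 f hf0, or_iff_right hf0, ← zpow_zero q]
    exact (hsa.lt_iff_gt (a := placeOrd (4 * m) o f) (b := 0)).symm

/-- **Doubling at a point of the line.** -/
theorem placeHgt_double (o : Option k) {x y y₂ : RatFunc k}
    (h : (shortEq A B).toAffine.Equation x y) (hy : y ≠ 0)
    (h₂ : (shortEq A B).toAffine.Equation (dblX (algebraMap k[X] (RatFunc k) A) x y) y₂)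
    (hy₂ : y₂ ≠ 0) :
    placeHgt A B m o (dblX (algebraMap k[X] (RatFunc k) A) x y) y₂ =
      4 * placeHgt A B m o x y + 2 * (placeOrd (3 * m) o y : ℝ) := by
  set j := algebraMap (RatFunc k) (AlgebraicClosure (RatFunc k))
  set g := algebraMap k[X] (RatFunc k)
  obtain ⟨V, q, u, hv, hq0, hq1, hu, ha, hb, hD, ha1, hy', hx', hi⟩ := exists_local hS o
  set a := j (g A) / u ^ 4 with hadef
  set b := j (g B) / u ^ 6 with hbdef
  have heq : ∀ {x y : RatFunc k}, (shortEq A B).toAffine.Equation x y →
      (j y / u ^ 3) ^ 2 = (j x / u ^ 2) ^ 3 - 27 * a * (j x / u ^ 2) - 54 * b := fun {x y} h => by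
    have h' := congrArg j (equation_shortL (a := g A) (b := g B) h)
    simp only [map_sub, map_mul, map_pow, map_ofNat] at h'
    rw [hadef, hbdef]
    field_simp
    linear_combination h'
  have hdbl : j (dblX (g A) x y) / u ^ 2 = dblX a (j x / u ^ 2) (j y / u ^ 3) := by
    simp only [dblX, hadef, map_sub, map_div₀, map_mul, map_pow, map_ofNat]
    field_simp
  have hp₂ := hx' (dblX (g A) x y)
  rw [hdbl] at hp₂
  have heq₂ := heq h₂
  rw [hdbl] at heq₂
  simp only [placeHgt, compCorr]
  rcases Nat.eq_zero_or_pos (discOrd A B m o) with h0 | h0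
  · rw [h0, pow_zero] at hD
    have := double_good hv hq0 hq1 ha hb hD (heq h) (hy' y hy) (hx' x) hp₂
    simp only [h0, Nat.cast_zero, div_zero, sub_zero]
    exact_mod_cast this
  haveI hell : (shortL a b).IsElliptic := isElliptic_shortL hv
    (V.valuation.ne_zero_iff.1 (hD ▸ pow_ne_zero _ hq0.ne'))
  obtain ⟨r, hR, -⟩ := exists_nodeAt hv hq0 hq1 (ha1 h0) hb h0 hD
  have := double_bad hv hq0 hq1 hR (heq h) (hy' y hy) (hx' x) heq₂ (hy' y₂ hy₂) hp₂
  rw [← hdbl, ← hi, ← hi] at this
  have hn : (discOrd A B m o : ℝ) ≠ 0 := Nat.cast_ne_zero.2 h0.ne'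
  have := congrArg (Int.cast (R := ℝ)) this
  push_cast at this
  field_simp
  linear_combination this

theorem sum_placeHgt {x : RatFunc k} (y : RatFunc k) {S : Finset k}
    (hD : (A ^ 3 - B ^ 2).roots.toFinset ⊆ S) (hx : x.denom.roots.toFinset ⊆ S) :
    ∑ o ∈ insert none (S.map Function.Embedding.some), placeHgt A B m o x y =
      (poleDeg m x : ℝ) - 2 * m - corrSum A B m x y := by
  unfold placeHgt
  rw [Finset.sum_sub_distrib]
  congr 1
  · rw [Finset.sum_insert (by simp), Finset.sum_map]
    have e : ∑ t ∈ S, ((-placeOrd (2 * m) (Function.Embedding.some t) x).toNat : ℝ) =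
        (x.denom.natDegree : ℝ) := by
      rw [← sum_rootMultiplicity hx, Nat.cast_sum]
      exact Finset.sum_congr rfl fun t _ => by rw [Function.Embedding.some_apply, toNat_pole]
    rw [e]
    have h : poleDeg m x = (-placeOrd (2 * m) none x).toNat + x.denom.natDegree + 2 * m := by
      simp only [poleDeg, placeOrd, RatFunc.intDegree]
      push_cast
      omega
    rw [h]
    push_cast
    ring
  · refine (Finset.sum_subset (fun o ho => ?_) fun o ho hno => ?_).symm
    · exact Finset.insert_subset_insert _ (Finset.map_subset_map.2 hD) (Finset.mem_of_mem_filter o ho)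
    · have h0 : discOrd A B m o = 0 := by
        by_contra hne
        refine hno (Finset.mem_filter.2 ⟨?_, Nat.pos_of_ne_zero hne⟩)
        cases o with
        | none => exact Finset.mem_insert_self _ _
        | some t =>
          refine Finset.mem_insert_of_mem (Finset.mem_map.2 ⟨t, ?_, rfl⟩)
          rw [Multiset.mem_toFinset, mem_roots hS.disc_ne]
          exact (rootMultiplicity_pos hS.disc_ne).1 (Nat.pos_of_ne_zero hne)
      simp [compCorr, h0]

theorem sum_discOrd : ∑ o ∈ badPlaces A B m, discOrd A B m o = 12 * m := by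
  rw [badPlaces, Finset.sum_filter_of_ne fun o _ h => Nat.pos_of_ne_zero h,
    Finset.sum_insert (by simp), Finset.sum_map]
  have h : ∑ t ∈ (A ^ 3 - B ^ 2).roots.toFinset, discOrd A B m (Function.Embedding.some t) =
      (A ^ 3 - B ^ 2).natDegree := sum_rootMultiplicity (Finset.Subset.refl _)
  rw [h]
  have := natDegree_disc_le hS
  simp only [discOrd]
  omega

theorem corrSum_le (x y : RatFunc k) :
    0 ≤ corrSum A B m x y ∧ corrSum A B m x y ≤ 12 * m := by
  have key : ∀ o, compCorr A B m o x y = kern (discOrd A B m o) (component A B m o x y : ℕ) :=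
    fun o => by
      rw [kern_of_le (by unfold component; split_ifs <;> omega)]
      rfl
  constructor
  · exact Finset.sum_nonneg fun o _ => key o ▸ kern_nonneg _ _
  · refine (Finset.sum_le_sum fun o _ => key o ▸ kern_le _ _).trans ?_
    rw [← Nat.cast_sum, sum_discOrd hS]
    push_cast
    rfl

/-- **The sum over the line under doubling.** -/
theorem poleDeg_double {x y y₂ : RatFunc k} (h : (shortEq A B).toAffine.Equation x y) (hy : y ≠ 0)
    (h₂ : (shortEq A B).toAffine.Equation (dblX (algebraMap k[X] (RatFunc k) A) x y) y₂)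
    (hy₂ : y₂ ≠ 0) :
    (poleDeg m (dblX (algebraMap k[X] (RatFunc k) A) x y) : ℝ) -
        corrSum A B m (dblX (algebraMap k[X] (RatFunc k) A) x y) y₂ =
      4 * ((poleDeg m x : ℝ) - corrSum A B m x y) := by
  set x₂ := dblX (algebraMap k[X] (RatFunc k) A) x y
  set S := (A ^ 3 - B ^ 2).roots.toFinset ∪ x.denom.roots.toFinset ∪ x₂.denom.roots.toFinset ∪
    y.num.roots.toFinset ∪ y.denom.roots.toFinset with hSdef
  have hsub : ∀ {T : Finset k}, (∀ t ∈ T, t ∈ S) → T ⊆ S := fun h => h
  have h1 := sum_placeHgt hS y (x := x) (S := S) (hsub fun t ht => by simp [hSdef, ht])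
    (hsub fun t ht => by simp [hSdef, ht])
  have h2 := sum_placeHgt hS y₂ (x := x₂) (S := S) (hsub fun t ht => by simp [hSdef, ht])
    (hsub fun t ht => by simp [hSdef, ht])
  rw [Finset.sum_congr rfl fun o _ => placeHgt_double hS o h hy h₂ hy₂] at h2
  rw [Finset.sum_add_distrib, ← Finset.mul_sum, ← Finset.mul_sum, h1] at h2
  have h3 : ∑ o ∈ insert none (S.map Function.Embedding.some), (placeOrd (3 * m) o y : ℝ) =
      3 * (m : ℝ) := by
    rw [Finset.sum_insert (by simp), Finset.sum_map]
    simp only [Function.Embedding.some_apply, placeOrd, RatFunc.intDegree]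
    push_cast
    rw [Finset.sum_sub_distrib, ← Nat.cast_sum, ← Nat.cast_sum,
      sum_rootMultiplicity (hsub fun t ht => by simp [hSdef, ht]),
      sum_rootMultiplicity (hsub fun t ht => by simp [hSdef, ht])]
    ring
  rw [h3] at h2
  linarith

theorem exists_double {x y : RatFunc k} (h : (genW (shortW A B)).toAffine.Nonsingular x y)
    (hy : y ≠ 0) : ∃ (y₂ : RatFunc k) (h₂ : (genW (shortW A B)).toAffine.Nonsingular
      (dblX (algebraMap k[X] (RatFunc k) A) x y) y₂),
      2 • Affine.Point.some x y h = Affine.Point.some _ y₂ h₂ := by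
  have hn : (genW (shortW A B)).toAffine.negY x y = -y := by
    simp [genW_shortW, Affine.negY, shortEq]
  have hne : y ≠ (genW (shortW A B)).toAffine.negY x y := by
    rw [hn]
    intro e
    have h0 : (2 : RatFunc k) * y = 0 := by linear_combination e
    exact hy ((mul_eq_zero.1 h0).resolve_left two_ne_zero)
  set l := (genW (shortW A B)).toAffine.slope x x y y with hl
  have hX : (genW (shortW A B)).toAffine.addX x x l = dblX (algebraMap k[X] (RatFunc k) A) x y := by
    rw [hl, Affine.slope_of_Y_ne rfl hne, hn]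
    simp only [genW_shortW, Affine.addX, shortEq, dblX]
    field_simp
    ring
  have h2 := Affine.Point.add_self_of_Y_ne (h₁ := h) hne
  have hns := Affine.nonsingular_add h h fun hh => hne hh.2
  refine ⟨(genW (shortW A B)).toAffine.addY x x y l, hX ▸ hns, ?_⟩
  rw [two_nsmul, h2]
  simp only [Affine.Point.some.injEq]
  exact ⟨hX, rfl⟩

omit hS in
theorem exists_some_of_not_torsion {P : (genW (shortW A B)).toAffine.Point}
    [(genW (shortW A B)).IsElliptic] (hP : ¬IsOfFinAddOrder P) :
    ∃ x y h, P = Affine.Point.some x y h ∧ y ≠ 0 := by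
  rcases P with _ | ⟨x, y, h⟩
  · exact absurd IsOfFinAddOrder.zero hP
  refine ⟨x, y, h, rfl, fun hy => hP (isOfFinAddOrder_iff_nsmul_eq_zero.2 ⟨2, two_pos, ?_⟩)⟩
  rw [two_nsmul, ← eq_neg_iff_add_eq_zero, Affine.Point.neg_some, Affine.Point.some.injEq]
  exact ⟨rfl, by simp [genW_shortW, Affine.negY, shortEq, hy]⟩

omit hS in
theorem not_torsion_nsmul {G : Type*} [AddMonoid G] {P : G} (hP : ¬IsOfFinAddOrder P) {j : ℕ}
    (hj : 0 < j) : ¬IsOfFinAddOrder (j • P) := fun h => by
  obtain ⟨n, hn, hn'⟩ := isOfFinAddOrder_iff_nsmul_eq_zero.1 h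
  exact hP (isOfFinAddOrder_iff_nsmul_eq_zero.2 ⟨j * n, Nat.mul_pos hj hn, by
    rw [mul_nsmul, hn']⟩)

/-- **The height formula.** -/
theorem genHgt_eq {x y : RatFunc k} {h : (genW (shortW A B)).toAffine.Nonsingular x y}
    [(genW (shortW A B)).IsElliptic] (hP : ¬IsOfFinAddOrder (Affine.Point.some x y h)) :
    genHgt (shortW A B) (Affine.Point.some x y h) = (poleDeg m x : ℝ) - corrSum A B m x y := by
  set φ : (genW (shortW A B)).toAffine.Point → ℝ := fun P => match P with
    | .zero => 0
    | .some x y _ => (poleDeg m x : ℝ) - corrSum A B m x y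
  have hdouble : ∀ P : (genW (shortW A B)).toAffine.Point, ¬IsOfFinAddOrder P →
      φ (2 • P) = 4 * φ P := fun P hP => by
    obtain ⟨x, y, h, rfl, hy⟩ := exists_some_of_not_torsion hP
    obtain ⟨y₂, h₂, e⟩ := exists_double hS h hy
    obtain ⟨x', y', h', e', hy'⟩ := exists_some_of_not_torsion (not_torsion_nsmul hP two_pos)
    rw [e, Affine.Point.some.injEq] at e'
    rw [e]
    exact poleDeg_double hS (genW_shortW A B ▸ h.1) hy (genW_shortW A B ▸ h₂.1) (e'.2 ▸ hy')
  obtain ⟨⟨C₀, hC₀⟩, hpar, -⟩ := FA.LangNeron.genHgt_spec (shortW_Δ_ne hS)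
  have hbound : ∀ P : (genW (shortW A B)).toAffine.Point,
      |φ P - genHgt (shortW A B) P| ≤ C₀ + 14 * m := fun P => by
    have h1 := abs_le.1 (hC₀ P)
    rcases P with _ | ⟨x, y, hxy⟩
    · have h0 : genHgt (shortW A B) (0 : (genW (shortW A B)).toAffine.Point) = 0 :=
        FA.Height.map_zero_of_law hpar
      have := (abs_nonneg _).trans (hC₀ 0)
      show |(0 : ℝ) - genHgt (shortW A B) (0 : (genW (shortW A B)).toAffine.Point)| ≤ _
      rw [h0, sub_zero, abs_zero]
      positivity
    have hd : ptDeg (toPoint (Affine.Point.some x y hxy : (genW (shortW A B)).toAffine.Point).xRep) =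
        max x.num.natDegree x.denom.natDegree := by
      rw [Affine.Point.xRep_some, show toPoint ![x, (1 : RatFunc k)] = ↑x by simp [toPoint],
        ptDeg_coe]
    rw [hd] at h1
    obtain ⟨hc1, hc2⟩ := corrSum_le hS x y
    have hp1 : max x.num.natDegree x.denom.natDegree ≤ poleDeg m x := by
      simp only [poleDeg]; omega
    have hp2 : poleDeg m x ≤ max x.num.natDegree x.denom.natDegree + 2 * m := by
      simp only [poleDeg]; omega
    have hp1' : ((max x.num.natDegree x.denom.natDegree : ℕ) : ℝ) ≤ poleDeg m x :=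
      Nat.cast_le.2 hp1
    have hp2' : (poleDeg m x : ℝ) ≤ (max x.num.natDegree x.denom.natDegree : ℕ) + 2 * (m : ℝ) := by
      exact_mod_cast hp2
    have hm : (0 : ℝ) ≤ m := Nat.cast_nonneg m
    show |(poleDeg m x : ℝ) - corrSum A B m x y - _| ≤ _
    rw [abs_le]
    constructor <;> linarith [h1.1, h1.2]
  set P : (genW (shortW A B)).toAffine.Point := Affine.Point.some x y h with hPdef
  have hpow : ∀ i : ℕ, φ ((2 ^ i) • P) = 4 ^ i * φ P := fun i => by
    induction i with
    | zero => simp
    | succ i ih =>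
      rw [pow_succ', mul_nsmul', hdouble _ (not_torsion_nsmul hP (by positivity)), ih, pow_succ']
      ring
  have hpow' : ∀ i : ℕ, genHgt (shortW A B) ((2 ^ i) • P) = 4 ^ i * genHgt (shortW A B) P :=
    fun i => by
      rw [FA.Height.map_nsmul_of_law hpar, Nat.cast_pow, ← pow_mul, mul_comm i 2, pow_mul]
      norm_num
  show genHgt (shortW A B) P = φ P
  by_contra hne
  have hpos : 0 < |φ P - genHgt (shortW A B) P| := abs_pos.2 (sub_ne_zero.2 (Ne.symm hne))
  obtain ⟨i, hi⟩ := pow_unbounded_of_one_lt ((C₀ + 14 * m) / |φ P - genHgt (shortW A B) P|)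
    (show (1 : ℝ) < 4 by norm_num)
  have h4 := hbound ((2 ^ i) • P)
  rw [hpow, hpow', ← mul_sub, abs_mul, abs_of_pos (show (0 : ℝ) < 4 ^ i by positivity)] at h4
  rw [div_lt_iff₀ hpos] at hi
  linarith

/-- **The components of the multiples.** -/
theorem exists_residues [(genW (shortW A B)).IsElliptic]
    {P : (genW (shortW A B)).toAffine.Point} (hP : ¬IsOfFinAddOrder P) {o : Option k}
    (ho : 0 < discOrd A B m o) :
    ∃ c : ℤ, ∀ r : ℕ, 1 ≤ r → ∀ (x y : RatFunc k) h, r • P = Affine.Point.some x y h →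
      compCorr A B m o x y = kern (discOrd A B m o) ((r : ℤ) * c) := by
  set j := algebraMap (RatFunc k) (AlgebraicClosure (RatFunc k))
  set g := algebraMap k[X] (RatFunc k)
  obtain ⟨V, q, u, hv, hq0, hq1, hu, ha, hb, hD, ha1, hy', hx', hi⟩ := exists_local hS o
  set a := j (g A) / u ^ 4 with hadef
  set b := j (g B) / u ^ 6 with hbdef
  have hmap : (genW (shortW A B)).map j = shortL (j (g A)) (j (g B)) := by
    rw [genW_shortW, map_shortEq]
  haveI : (shortL (j (g A)) (j (g B))).IsElliptic := by rw [← hmap]; infer_instance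
  haveI : (shortL a b).IsElliptic := isElliptic_shortL hv
    (V.valuation.ne_zero_iff.1 (hD ▸ pow_ne_zero _ hq0.ne'))
  obtain ⟨φ, hφ⟩ := FA.CoxParry.exists_scaleEquiv (a := j (g A)) (b := j (g B)) hu
  choose! X Y hns hXY hY0 using fun (r : ℕ) (hr : 1 ≤ r) =>
    exists_some_of_not_torsion (not_torsion_nsmul hP hr)
  have himg : ∀ r, 1 ≤ r → ∃ h', r • φ (pointMap j hmap P) =
      Affine.Point.some (j (X r) / u ^ 2) (j (Y r) / u ^ 3) h' := fun r hr => by
    have hns' : (shortL (j (g A)) (j (g B))).toAffine.Nonsingular (j (X r)) (j (Y r)) :=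
      hmap ▸ ((genW (shortW A B)).toAffine.map_nonsingular j.injective (X r) (Y r)).2 (hns r hr)
    obtain ⟨h', e'⟩ := hφ _ _ hns'
    exact ⟨h', by rw [← map_nsmul, ← map_nsmul, hXY r hr, pointMap_some, e']⟩
  have h2 : X 2 = dblX (g A) (X 1) (Y 1) := by
    have e1 := hXY 1 le_rfl
    rw [one_nsmul] at e1
    obtain ⟨y₂, h₂, e₂⟩ := exists_double hS (hns 1 le_rfl) (hY0 1 le_rfl)
    rw [← e1, hXY 2 one_le_two, Affine.Point.some.injEq] at e₂
    exact e₂.1
  obtain ⟨c, hc⟩ := exists_residue hv hq0 hq1 (ha1 ho) hb ho hD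
    (fun r => j (X r) / u ^ 2) (fun r => j (Y r) / u ^ 3) (fun r => placeOrd (3 * m) o (Y r))
    himg (fun r hr => hy' _ (hY0 r hr)) (by
      simp only [h2, dblX, hadef, map_sub, map_div₀, map_mul, map_pow, map_ofNat]
      field_simp)
  refine ⟨c, fun r hr x y h e => ?_⟩
  rw [hXY r hr, Affine.Point.some.injEq] at e
  obtain ⟨rfl, rfl⟩ := e
  have hle : 2 * component A B m o (X r) (Y r) ≤ discOrd A B m o :=
    hi (X r) (Y r) ▸ two_mul_nodeIdx_le _ _ _ _ _
  rw [compCorr, ← kern_of_le hle]
  obtain ⟨i, h' | h'⟩ := hc r hr <;> rw [← hi (X r) (Y r)] at h'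
  · rw [h', kern_add_mul]
  · rw [show (r : ℤ) * c = -(component A B m o (X r) (Y r) : ℤ) + discOrd A B m o * i by
      linear_combination h', kern_add_mul, kern_neg]

end Semistable

end FA.HindrySilverman
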