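import Fermat.Agent.CoxParry.Places

/-!
# The local height at a semistable place

For a short equation at a place with discriminant of order `n` and a point with ordinate of order
`e`, the pole order `p` of the abscissa and the component `i` satisfy
`n p₂ - i₂ (n - i₂) = 4 (n p - i (n - i)) + 2 n e` under doubling, and the components of the
multiples of a point are the multiples of one residue modulo `n`, up to sign.
-/

set_option autoImplicit false
set_option linter.unusedSectionVars false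
set_option linter.style.haveILetI false

noncomputable section

open WeierstrassCurve FA.Local FA.LevinTorsion FA.CoxParry
open scoped Classical

namespace FA.HindrySilverman

variable {L Γ : Type*} [Field L] [LinearOrderedCommGroupWithZero Γ] {v : Valuation L Γ}

/-- The component of a point of abscissa `x` with ordinate of order `e`, up to sign. -/
def nodeIdx (v : Valuation L Γ) (n : ℕ) (a x : L) (e : ℤ) : ℕ :=
  if v (3 * x ^ 2 - 27 * a) < 1 then min e.toNat (n / 2) else 0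

theorem two_mul_nodeIdx_le (v : Valuation L Γ) (n : ℕ) (a x : L) (e : ℤ) :
    2 * nodeIdx v n a x e ≤ n := by
  unfold nodeIdx; split_ifs <;> omega

/-- The abscissa of a double. -/
def dblX (a x y : L) : L := (3 * x ^ 2 - 27 * a) ^ 2 / (4 * y ^ 2) - 2 * x

/-- The two-torsion abscissa `r` at a node. -/
structure NodeAt (v : Valuation L Γ) (q : Γ) (n : ℕ) (a b r : L) : Prop where
  val_r : v r = 1
  root : r ^ 3 - 27 * a * r - 54 * b = 0
  val_lt : v (3 * r ^ 2 - 27 * a) < 1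
  val_sq : v (3 * r ^ 2 - 27 * a) ^ 2 = q ^ n
  val_pos : 0 < v (3 * r ^ 2 - 27 * a)

variable (hv : ∀ n : ℤ, n ≠ 0 → v (n : L) = 1)
include hv

theorem origin_coeffs {a b r : L} [(shortL a b).IsElliptic] :
    (toOrigin (shortL a b) r).a₂ = 3 * r ∧
      (toOrigin (shortL a b) r).a₄ = 3 * r ^ 2 - 27 * a ∧
      (toOrigin (shortL a b) r).a₆ = r ^ 3 - 27 * a * r - 54 * b := by
  have h0 : halfY (shortL a b) r = 0 := by simp [halfY, shortL]
  refine ⟨?_, ?_, ?_⟩ <;>
    simp only [toOrigin, h0, variableChange_a₂, variableChange_a₄, variableChange_a₆] <;>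
    simp only [shortL, Units.val_one, inv_one, one_pow, one_mul] <;> ring

theorem exists_nodeAt [IsAlgClosed L] {q : Γ} (_hq0 : 0 < q) (hq1 : q < 1) {a b : L}
    [(shortL a b).IsElliptic] (ha : v a = 1) (hb : v b ≤ 1) {n : ℕ} (hn : 0 < n)
    (hD : v (a ^ 3 - b ^ 2) = q ^ n) :
    ∃ r, NodeAt v q n a b r ∧ Node v (toOrigin (shortL a b) r).toAffine := by
  obtain ⟨r, hN, hA⟩ := exists_mult hv ha hb (hD ▸ pow_lt_one₀ zero_le hq1 hn.ne')
  obtain ⟨e2, e4, e6⟩ := origin_coeffs hv (a := a) (b := b) (r := r)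
  rw [hD, e4] at hA
  have h2 : v (toOrigin (shortL a b) r).a₂ = 1 :=
    val_a₂ hv hN (by rw [toOrigin_a₁]; rfl)
  rw [e2, map_mul, val_ofNat hv 3, one_mul] at h2
  have hb' : v (toOrigin (shortL a b) r).a₄ < 1 := hN.hb
  rw [e4] at hb'
  refine ⟨r, ⟨h2, e6.symm.trans hN.h₆, hb', hA, v.pos_iff.2 ?_⟩, hN⟩
  exact fun e => hN.hb₀ (e4.trans e)

section Node

variable {q : Γ} (hq0 : 0 < q) (hq1 : q < 1) {n : ℕ} {a b r : L} (hR : NodeAt v q n a b r)
include hq0 hq1 hR

theorem hR_quad (x : L) : x ^ 3 - 27 * a * x - 54 * b =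
    (x - r) * ((x - r) ^ 2 + 3 * r * (x - r) + (3 * r ^ 2 - 27 * a)) := by
  linear_combination hR.root

theorem max_one_sub (x : L) : max 1 (v x) = max 1 (v (x - r)) := by
  refine le_antisymm (max_le (le_max_left _ _) ?_) (max_le (le_max_left _ _) ?_)
  · have := v.map_add (x - r) r
    rw [sub_add_cancel, hR.val_r] at this
    exact this.trans (max_comm _ _).le
  · exact (v.map_sub x r).trans (by rw [hR.val_r, max_comm])

/-- Away from the node. -/
theorem val_sq_of_one_lt {x y : L} (heq : y ^ 2 = x ^ 3 - 27 * a * x - 54 * b)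
    (h : 1 < v (x - r)) : v y ^ 2 = v (x - r) ^ 3 := by
  set s := x - r with hs
  have h1 : v s < v (s ^ 2) := by
    rw [map_pow, sq]; exact lt_mul_of_one_lt_left (zero_lt_one.trans h) h
  have h2 : v (s ^ 2 + 3 * r * s + (3 * r ^ 2 - 27 * a)) = v s ^ 2 := by
    rw [← map_pow, add_assoc, v.map_add_eq_of_lt_left]
    refine v.map_add_lt ?_ ((hR.val_lt.trans h).trans h1)
    rwa [map_mul, map_mul, val_ofNat hv 3, hR.val_r, one_mul, one_mul]
  rw [← map_pow, heq, hR_quad hv hq0 hq1 hR, map_mul, h2, pow_succ' (v s) 2]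

theorem nodeIdx_of_one_le {x y : L} (heq : y ^ 2 = x ^ 3 - 27 * a * x - 54 * b)
    (h : 1 ≤ v (x - r)) {e : ℤ} (he : v y = q ^ e) : nodeIdx v n a x e = 0 := by
  set s := x - r with hs
  set β := 3 * r ^ 2 - 27 * a with hβ
  unfold nodeIdx
  split_ifs with hf
  swap
  · rfl
  have hfx : 3 * x ^ 2 - 27 * a = 3 * s ^ 2 + 6 * r * s + β := by simp only [hs, hβ]; ring
  suffices e ≤ 0 by omega
  by_contra hlt
  have hy : v y < 1 := by
    rw [he, ← zpow_zero q]
    exact zpow_right_strictAnti₀ hq0 hq1 (not_le.1 hlt)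
  rcases h.lt_or_eq with h1 | h1
  · have := val_sq_of_one_lt hv hq0 hq1 hR heq h1
    exact absurd (this ▸ pow_lt_one₀ zero_le hy two_ne_zero) (not_lt.2 (one_le_pow₀ h))
  have h2 : v (s * (s ^ 2 + 3 * r * s + β)) < 1 := by
    rw [← hR_quad hv hq0 hq1 hR, ← heq, map_pow]; exact pow_lt_one₀ zero_le hy two_ne_zero
  rw [map_mul, ← h1, one_mul] at h2
  have h3 : v (s ^ 2 - β) = 1 := by
    rw [v.map_sub_eq_of_lt_left] <;> rw [map_pow, ← h1, one_pow]
    exact hR.val_lt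
  rw [show s ^ 2 - β = (3 * x ^ 2 - 27 * a) - 2 * (s ^ 2 + 3 * r * s + β) by rw [hfx]; ring] at h3
  exact absurd h3 (v.map_sub_lt hf (map_mul_lt_one le_two h2)).ne

theorem nodeIdx_of_branch {x y : L} (heq : y ^ 2 = x ^ 3 - 27 * a * x - 54 * b)
    (h1 : v (3 * r ^ 2 - 27 * a) < v (x - r)) (h2 : v (x - r) < 1) {e : ℤ} (he : v y = q ^ e) :
    v (x - r) = q ^ e ∧ 0 < e ∧ 2 * e < n ∧ (nodeIdx v n a x e : ℤ) = e := by
  set s := x - r with hs
  set β := 3 * r ^ 2 - 27 * a with hβ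
  have hs0 : 0 < v s := lt_trans hR.val_pos h1
  have h3 : v (3 * r * s) = v s := by
    rw [map_mul, map_mul, val_ofNat hv 3, hR.val_r, one_mul, one_mul]
  have h4 : v (s ^ 2) < v (3 * r * s) := by
    rw [h3, map_pow, sq]; exact mul_lt_of_lt_one_left hs0 h2
  have h5 : v (s ^ 2 + 3 * r * s + β) = v s := by
    rw [v.map_add_eq_of_lt_left, v.map_add_eq_of_lt_right h4, h3]
    rw [v.map_add_eq_of_lt_right h4, h3]; exact h1
  have hvy : v y = v s := (pow_left_inj₀ zero_le zero_le two_ne_zero).1 (by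
    rw [← map_pow, heq, hR_quad hv hq0 hq1 hR, map_mul, h5, sq])
  have hse : v s = q ^ e := hvy.symm.trans he
  have he0 : 0 < e := (zpow_right_strictAnti₀ hq0 hq1).lt_iff_gt.1
    (show q ^ e < q ^ (0 : ℤ) by rw [← hse, zpow_zero]; exact h2)
  have hen : 2 * e < n := (zpow_right_strictAnti₀ hq0 hq1).lt_iff_gt.1 (by
    show q ^ (n : ℤ) < q ^ (2 * e)
    rw [zpow_natCast, ← hR.val_sq, mul_comm 2 e, zpow_mul, ← hse, zpow_two, sq]
    exact mul_lt_mul'' h1 h1 zero_le zero_le)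
  refine ⟨hse, he0, hen, ?_⟩
  have hf : v (3 * x ^ 2 - 27 * a) < 1 := by
    rw [show 3 * x ^ 2 - 27 * a = 3 * s ^ 2 + 6 * r * s + β by simp only [hs, hβ]; ring]
    refine v.map_add_lt (v.map_add_lt ?_ ?_) hR.val_lt
    · rw [map_mul, val_ofNat hv 3, one_mul, map_pow]; exact pow_lt_one₀ zero_le h2 two_ne_zero
    · rwa [map_mul, map_mul, val_ofNat hv 6, hR.val_r, one_mul, one_mul]
  rw [nodeIdx, if_pos hf]
  omega

theorem nodeIdx_of_middle {x y : L} (heq : y ^ 2 = x ^ 3 - 27 * a * x - 54 * b)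
    (h : v (x - r) ≤ v (3 * r ^ 2 - 27 * a)) {e : ℤ} (he : v y = q ^ e) :
    (n : ℤ) ≤ 2 * e ∧ nodeIdx v n a x e = n / 2 := by
  set s := x - r with hs
  set β := 3 * r ^ 2 - 27 * a with hβ
  have hs1 : v s ≤ 1 := h.trans hR.val_lt.le
  have h3 : v (3 * r * s) ≤ v β := by
    rwa [map_mul, map_mul, val_ofNat hv 3, hR.val_r, one_mul, one_mul]
  have h4 : v (s ^ 2) ≤ v β := by
    rw [map_pow, sq]; exact (mul_le_of_le_one_left' hs1).trans h
  have h5 : v y ^ 2 ≤ v β * v β := by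
    rw [← map_pow, heq, hR_quad hv hq0 hq1 hR, map_mul]
    exact mul_le_mul' h (v.map_add_le (v.map_add_le h4 h3) le_rfl)
  have hen : (n : ℤ) ≤ 2 * e := (zpow_right_strictAnti₀ hq0 hq1).le_iff_ge.1 (by
    show q ^ (2 * e) ≤ q ^ (n : ℤ)
    rw [zpow_natCast, ← hR.val_sq, mul_comm 2 e, zpow_mul, ← he, zpow_two]
    rw [sq] at h5 ⊢
    exact h5)
  refine ⟨hen, ?_⟩
  have hf : v (3 * x ^ 2 - 27 * a) < 1 := by
    rw [show 3 * x ^ 2 - 27 * a = 3 * s ^ 2 + 6 * r * s + β by simp only [hs, hβ]; ring]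
    refine v.map_add_lt (v.map_add_lt ?_ ?_) hR.val_lt
    · rw [map_mul, val_ofNat hv 3, one_mul]; exact h4.trans_lt hR.val_lt
    · rw [map_mul, map_mul, val_ofNat hv 6, hR.val_r, one_mul, one_mul]
      exact h.trans_lt hR.val_lt
  rw [nodeIdx, if_pos hf]
  omega

theorem dblX_sub {x y : L} (heq : y ^ 2 = x ^ 3 - 27 * a * x - 54 * b) (hy : y ≠ 0) :
    dblX a x y - r = ((x - r) ^ 2 - (3 * r ^ 2 - 27 * a)) ^ 2 / (4 * y ^ 2) := by
  have h4 : (4 : L) ≠ 0 := fun e => by simpa [e] using val_ofNat hv 4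
  rw [dblX]
  field_simp
  linear_combination (-4 * (2 * x + r)) * heq - 4 * (2 * x + r) * hR.root

/-- The order at a middle point is even. -/
theorem middle_double {x y : L} (heq : y ^ 2 = x ^ 3 - 27 * a * x - 54 * b)
    (h : v (x - r) ≤ v (3 * r ^ 2 - 27 * a)) {e : ℤ} (he : v y = q ^ e) {y₂ : L}
    (heq₂ : y₂ ^ 2 = dblX a x y ^ 3 - 27 * a * dblX a x y - 54 * b) {e₂ : ℤ}
    (he₂ : v y₂ = q ^ e₂) : v (dblX a x y - r) = q ^ ((n : ℤ) - 2 * e) ∧ 2 ∣ n := by
  have hy : y ≠ 0 := v.ne_zero_iff.1 (he ▸ zpow_ne_zero _ hq0.ne')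
  have hs1 : v (x - r) < 1 := h.trans_lt hR.val_lt
  have h4 : v ((x - r) ^ 2) < v (3 * r ^ 2 - 27 * a) := by
    rw [map_pow, sq]
    exact (mul_le_mul' le_rfl h).trans_lt (mul_lt_of_lt_one_left hR.val_pos hs1)
  have hv2 : v (dblX a x y - r) = q ^ ((n : ℤ) - 2 * e) := by
    rw [dblX_sub hv hq0 hq1 hR heq hy, map_div₀, map_mul, map_pow, map_pow, val_ofNat hv 4,
      one_mul, v.map_sub_eq_of_lt_right h4, hR.val_sq, he, zpow_sub₀ hq0.ne', zpow_natCast,
      mul_comm 2 e, zpow_mul, zpow_two, sq]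
  refine ⟨hv2, ?_⟩
  have hen := (nodeIdx_of_middle hv hq0 hq1 hR heq h he).1
  rcases hen.lt_or_eq with hlt | heqn
  · have h1 : 1 < v (dblX a x y - r) := by
      rw [hv2, ← zpow_zero q]; exact zpow_right_strictAnti₀ hq0 hq1 (by omega)
    have h2 := val_sq_of_one_lt hv hq0 hq1 hR heq₂ h1
    rw [hv2, he₂, ← zpow_natCast, ← zpow_natCast, ← zpow_mul, ← zpow_mul] at h2
    have := (zpow_right_strictAnti₀ hq0 hq1).injective h2
    omega
  · omega

/-- **Doubling at a multiplicative place.** -/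
theorem double_bad {x y : L} (heq : y ^ 2 = x ^ 3 - 27 * a * x - 54 * b) {e : ℤ}
    (he : v y = q ^ e) {p : ℕ} (hp : max 1 (v x) * q ^ p = 1) {y₂ : L}
    (heq₂ : y₂ ^ 2 = dblX a x y ^ 3 - 27 * a * dblX a x y - 54 * b) {e₂ : ℤ}
    (he₂ : v y₂ = q ^ e₂) {p₂ : ℕ} (hp₂ : max 1 (v (dblX a x y)) * q ^ p₂ = 1) :
    (n : ℤ) * p₂ - (nodeIdx v n a (dblX a x y) e₂ : ℤ) *
        (n - nodeIdx v n a (dblX a x y) e₂) =
      4 * ((n : ℤ) * p - (nodeIdx v n a x e : ℤ) * (n - nodeIdx v n a x e)) + 2 * n * e := by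
  have hy : y ≠ 0 := v.ne_zero_iff.1 (he ▸ zpow_ne_zero _ hq0.ne')
  have hinj : Function.Injective fun k : ℤ => q ^ k := (zpow_right_strictAnti₀ hq0 hq1).injective
  have hsa := zpow_right_strictAnti₀ hq0 hq1
  rw [max_one_sub hv hq0 hq1 hR] at hp hp₂
  have pole : ∀ {z : L} {j : ℕ}, 1 ≤ v z → max 1 (v z) * q ^ j = 1 → v z = q ^ (-(j : ℤ)) :=
    fun {z j} h1 h2 => by
      rw [max_eq_right h1] at h2
      rw [zpow_neg, zpow_natCast, eq_inv_of_mul_eq_one_left h2]
  have nopole : ∀ {z : L} {j : ℕ}, v z ≤ 1 → max 1 (v z) * q ^ j = 1 → j = 0 :=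
    fun {z j} h1 h2 => by
      rw [max_eq_left h1, one_mul] at h2
      exact pow_right_injective₀ hq0 hq1.ne (h2.trans (pow_zero q).symm)
  set s := x - r with hs
  set β := 3 * r ^ 2 - 27 * a with hβ
  have hs₂ : v (dblX a x y - r) = v (s ^ 2 - β) ^ 2 / q ^ (2 * e) := by
    rw [dblX_sub hv hq0 hq1 hR heq hy, map_div₀, map_mul, map_pow, map_pow, val_ofNat hv 4,
      one_mul, he, mul_comm 2 e, zpow_mul, zpow_two, ← sq (q ^ e)]
  rcases le_or_gt 1 (v s) with h1 | h1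
  · -- outside the node
    have hi := nodeIdx_of_one_le hv hq0 hq1 hR heq h1 he
    have hk := pole h1 hp
    have hd : v (s ^ 2 - β) = v s ^ 2 := by
      rw [v.map_sub_eq_of_lt_left] <;> rw [map_pow]
      exact hR.val_lt.trans_le (one_le_pow₀ h1)
    rw [hd, hk, ← zpow_natCast, ← zpow_natCast, ← zpow_mul, ← zpow_mul, ← zpow_sub₀ hq0.ne'] at hs₂
    have hk2 : -(p : ℤ) * 2 * 2 - 2 * e ≤ 0 := by
      rcases h1.lt_or_eq with h | h
      · have h2 := val_sq_of_one_lt hv hq0 hq1 hR heq h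
        rw [he, hk, ← zpow_natCast, ← zpow_natCast, ← zpow_mul, ← zpow_mul] at h2
        have := hinj h2
        omega
      · have hp0 : -(p : ℤ) = 0 := hinj (by simp only [← hk, ← h, zpow_zero])
        have hy1 : v y ≤ 1 := by
          rw [← pow_le_one_iff_of_nonneg zero_le two_ne_zero, ← map_pow, heq,
            hR_quad hv hq0 hq1 hR, map_mul, ← hs, ← h, one_mul]
          refine v.map_add_le (v.map_add_le ?_ ?_) hR.val_lt.le
          · rw [map_pow, ← h, one_pow]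
          · rw [map_mul, map_mul, val_ofNat hv 3, hR.val_r, ← h, one_mul, one_mul]
        have : 0 ≤ e := hsa.le_iff_ge.1 (show q ^ e ≤ q ^ (0 : ℤ) by rwa [← he, zpow_zero])
        omega
    have h12 : 1 ≤ v (dblX a x y - r) := by
      rw [hs₂, ← zpow_zero q]; exact hsa.antitone (by omega)
    have hi₂ := nodeIdx_of_one_le hv hq0 hq1 hR heq₂ h12 he₂
    have hk₂ := hinj ((pole h12 hp₂).symm.trans hs₂)
    rw [hi, hi₂]
    push_cast
    linear_combination -(n : ℤ) * hk₂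
  have hp0 : p = 0 := nopole h1.le hp
  subst hp0
  rcases lt_or_ge (v β) (v s) with h2 | h2
  · -- a branch
    obtain ⟨hse, he0, hen, hi⟩ := nodeIdx_of_branch hv hq0 hq1 hR heq h2 h1 he
    rw [hi]
    have hss : v (s ^ 2) = q ^ (2 * e) := by rw [map_pow, hse, mul_comm 2 e, zpow_mul, zpow_two, sq]
    have hβs : v β ^ 2 = q ^ (n : ℤ) := by rw [zpow_natCast, hR.val_sq]
    have hss4 : v (s ^ 2) ^ 2 = q ^ (4 * e) := by
      rw [hss, sq, ← zpow_add₀ hq0.ne']; congr 1; ring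
    rcases lt_trichotomy (4 * e) n with hlt | heq4 | hlt
    · have hd : v β < v (s ^ 2) := by
        rw [← pow_lt_pow_iff_left₀ zero_le zero_le two_ne_zero, hβs, hss4]
        exact hsa (by omega)
      rw [v.map_sub_eq_of_lt_left hd, hss, sq, mul_div_cancel_right₀ _ (zpow_ne_zero _ hq0.ne')]
        at hs₂
      have h12 : v (dblX a x y - r) < 1 := by rw [hs₂, ← zpow_zero q]; exact hsa (by omega)
      have h22 : v β < v (dblX a x y - r) := by rwa [hs₂, ← hss]
      obtain ⟨hse₂, -, -, hi₂⟩ := nodeIdx_of_branch hv hq0 hq1 hR heq₂ h22 h12 he₂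
      have hp₂' := nopole h12.le hp₂
      have hee : e₂ = 2 * e := hinj (hse₂.symm.trans hs₂)
      rw [hi₂, hp₂', hee]
      push_cast
      ring
    · have hd : v (s ^ 2 - β) ≤ v β := v.map_sub_le (le_of_eq ((pow_left_inj₀ zero_le zero_le
        two_ne_zero).1 (by rw [hβs, hss4, heq4]))) le_rfl
      have h22 : v (dblX a x y - r) ≤ v β := by
        have h2e : q ^ (2 * e) = v β := by
          rw [← hss]; exact (pow_left_inj₀ zero_le zero_le two_ne_zero).1 (by rw [hss4, hβs, heq4])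
        rw [hs₂, h2e, div_le_iff₀ hR.val_pos, ← sq]
        exact pow_le_pow_left₀ zero_le hd 2
      obtain ⟨-, hi₂⟩ := nodeIdx_of_middle hv hq0 hq1 hR heq₂ h22 he₂
      have hp₂' := nopole (h22.trans hR.val_lt.le) hp₂
      have hee : ((n / 2 : ℕ) : ℤ) = 2 * e := by omega
      rw [hi₂, hee, hp₂', ← heq4]
      push_cast
      ring
    · have hd : v (s ^ 2) < v β := by
        rw [← pow_lt_pow_iff_left₀ zero_le zero_le two_ne_zero, hβs, hss4]
        exact hsa (by omega)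
      rw [v.map_sub_eq_of_lt_right hd, hβs, ← zpow_sub₀ hq0.ne'] at hs₂
      have h12 : v (dblX a x y - r) < 1 := by rw [hs₂, ← zpow_zero q]; exact hsa (by omega)
      have h22 : v β < v (dblX a x y - r) := by
        rw [← pow_lt_pow_iff_left₀ zero_le zero_le two_ne_zero, hβs, sq, hs₂,
          ← zpow_add₀ hq0.ne']
        exact hsa (by omega)
      obtain ⟨hse₂, -, -, hi₂⟩ := nodeIdx_of_branch hv hq0 hq1 hR heq₂ h22 h12 he₂
      have hp₂' := nopole h12.le hp₂
      have hee : e₂ = (n : ℤ) - 2 * e := hinj (hse₂.symm.trans hs₂)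
      rw [hi₂, hp₂', hee]
      push_cast
      ring
  · -- the middle component
    obtain ⟨hen, hi⟩ := nodeIdx_of_middle hv hq0 hq1 hR heq h2 he
    obtain ⟨hv2, m, rfl⟩ := middle_double hv hq0 hq1 hR heq h2 he heq₂ he₂
    have h12 : 1 ≤ v (dblX a x y - r) := by
      rw [hv2, ← zpow_zero q]; exact hsa.antitone (by omega)
    have hi₂ := nodeIdx_of_one_le hv hq0 hq1 hR heq₂ h12 he₂
    have hk₂ := hinj ((pole h12 hp₂).symm.trans hv2)
    rw [hi, hi₂, Nat.mul_div_cancel_left m two_pos]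
    push_cast at hk₂ ⊢
    linear_combination -(2 * (m : ℤ)) * hk₂

end Node

/-- **Doubling at a good place.** -/
theorem double_good [DecidableEq L] {q : Γ} (hq0 : 0 < q) (hq1 : q < 1) {a b : L}
    (ha : v a ≤ 1) (hb : v b ≤ 1) (hD : v (a ^ 3 - b ^ 2) = 1) {x y : L}
    (heq : y ^ 2 = x ^ 3 - 27 * a * x - 54 * b) {e : ℤ} (he : v y = q ^ e) {p : ℕ}
    (hp : max 1 (v x) * q ^ p = 1) {p₂ : ℕ} (hp₂ : max 1 (v (dblX a x y)) * q ^ p₂ = 1) :
    (p₂ : ℤ) = 4 * p + 2 * e := by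
  have hinj : Function.Injective fun k : ℤ => q ^ k := (zpow_right_strictAnti₀ hq0 hq1).injective
  have hsa := zpow_right_strictAnti₀ hq0 hq1
  have h4 : (4 : L) ≠ 0 := fun e => by simpa [e] using val_ofNat hv 4
  have hy : y ≠ 0 := v.ne_zero_iff.1 (he ▸ zpow_ne_zero _ hq0.ne')
  have inv_pow' : ∀ {z : L} {j : ℕ}, 1 ≤ v z → max 1 (v z) * q ^ j = 1 → v z = q ^ (-(j : ℤ)) :=
    fun {z j} h1 h2 => by
      rw [max_eq_right h1] at h2
      rw [zpow_neg, zpow_natCast, eq_inv_of_mul_eq_one_left h2]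
  have nopole : ∀ {z : L} {j : ℕ}, v z ≤ 1 → max 1 (v z) * q ^ j = 1 → j = 0 :=
    fun {z j} h1 h2 => by
      rw [max_eq_left h1, one_mul] at h2
      exact pow_right_injective₀ hq0 hq1.ne (h2.trans (pow_zero q).symm)
  rcases lt_or_ge 1 (v x) with h1 | h1
  · have hk := inv_pow' h1.le hp
    have hx2 : v x ≤ v x ^ 2 := le_self_pow h1.le two_ne_zero
    have hy2 : v y ^ 2 = v x ^ 3 := by
      rw [← map_pow, heq, sub_sub, v.map_sub_eq_of_lt_left, map_pow]
      rw [map_pow]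
      have h13 : v x < v x ^ 3 := lt_self_pow₀ h1 (by norm_num)
      refine v.map_add_lt ?_ ?_
      · rw [map_mul, map_mul, val_ofNat hv 27, one_mul]
        exact (mul_le_of_le_one_left' ha).trans_lt h13
      · rw [map_mul, val_ofNat hv 54, one_mul]; exact hb.trans_lt (h1.trans h13)
    have hx₂ : v (dblX a x y) = v x := by
      have e1 : dblX a x y =
          (x ^ 4 + (54 * a * x ^ 2 + (432 * b * x + 729 * a ^ 2))) / (4 * y ^ 2) := by
        rw [dblX]; field_simp; linear_combination (-8 * x) * heq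
      have hx4 : v x ^ 2 < v x ^ 4 := pow_lt_pow_right₀ h1 (by norm_num)
      rw [e1, map_div₀, v.map_add_eq_of_lt_left, map_pow, map_mul, val_ofNat hv 4, one_mul,
        map_pow, hy2, div_eq_iff (pow_ne_zero _ (zero_lt_one.trans h1).ne'), ← pow_succ']
      rw [map_pow]
      refine v.map_add_lt ?_ (v.map_add_lt ?_ ?_)
      · rw [map_mul, map_mul, val_ofNat hv 54, one_mul, map_pow]
        exact (mul_le_of_le_one_left' ha).trans_lt hx4
      · rw [map_mul, map_mul, val_ofNat hv 432, one_mul]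
        exact ((mul_le_of_le_one_left' hb).trans hx2).trans_lt hx4
      · rw [map_mul, map_pow, val_ofNat hv 729, one_mul]
        exact (pow_le_one₀ zero_le ha).trans_lt (one_lt_pow₀ h1 (by norm_num))
    have hk₂ := hinj ((inv_pow' (hx₂ ▸ h1.le) hp₂).symm.trans (hx₂.trans hk))
    rw [he, hk, ← zpow_natCast, ← zpow_natCast, ← zpow_mul, ← zpow_mul] at hy2
    have := hinj hy2
    omega
  · have hp0 := nopole h1 hp
    subst hp0
    have hI := intCoeff_shortL hv ha hb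
    have hE : (shortL a b).toAffine.Equation x y := by
      rw [Affine.equation_iff]; simp only [shortL]; linear_combination heq
    have hy1 : v y ≤ 1 := le_y_of_le_x hI hE h1
    have he0 : 0 ≤ e := hsa.le_iff_ge.1 (show q ^ e ≤ q ^ (0 : ℤ) by rwa [← he, zpow_zero])
    have h2x : v (2 * x) ≤ 1 := by rwa [map_mul, val_ofNat hv 2, one_mul]
    have hF : v (3 * x ^ 2 - 27 * a) ≤ 1 := by
      refine v.map_sub_le ?_ ?_
      · rw [map_mul, val_ofNat hv 3, one_mul, map_pow]; exact pow_le_one₀ zero_le h1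
      · rwa [map_mul, val_ofNat hv 27, one_mul]
    rcases he0.lt_or_eq with hlt | rfl
    · have hf : v (3 * x ^ 2 - 27 * a) = 1 := by
        rcases nsRed_of_good hv ha hb hD hE h1 with h | h
        · refine absurd h (ne_of_lt ?_)
          simp only [fy, shortL, zero_mul, add_zero]
          rw [map_mul, val_ofNat hv 2, one_mul, he, ← zpow_zero q]
          exact hsa hlt
        · simp only [fx, shortL, mul_zero, zero_mul, add_zero, sub_zero, neg_mul,
            ← sub_eq_add_neg] at h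
          exact h
      have hq2 : 1 < q ^ (-(2 * e)) := by rw [← zpow_zero q]; exact hsa (by omega)
      have hx₂ : v (dblX a x y) = q ^ (-(2 * e)) := by
        have h0 : v ((3 * x ^ 2 - 27 * a) ^ 2 / (4 * y ^ 2)) = q ^ (-(2 * e)) := by
          rw [map_div₀, map_mul, map_pow, map_pow, hf, val_ofNat hv 4, one_mul, one_pow, he,
            zpow_neg, one_div, mul_comm, zpow_mul, zpow_two, sq]
        rw [dblX, v.map_sub_eq_of_lt_left (h0.symm ▸ h2x.trans_lt hq2), h0]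
      have := hinj ((inv_pow' (hx₂ ▸ hq2.le) hp₂).symm.trans hx₂)
      omega
    · rw [zpow_zero] at he
      have : v (dblX a x y) ≤ 1 := by
        refine v.map_sub_le ?_ h2x
        rw [map_div₀, map_mul, map_pow, map_pow, he, val_ofNat hv 4, one_pow, one_mul, div_one]
        exact pow_le_one₀ zero_le hF
      rw [nopole this hp₂]
      rfl

/-- **The components of the multiples** are the multiples of one residue, up to sign. -/
theorem exists_residue [IsAlgClosed L] [DecidableEq L] {q : Γ} (hq0 : 0 < q) (hq1 : q < 1)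
    {a b : L} [(shortL a b).IsElliptic] (ha : v a = 1) (hb : v b ≤ 1) {n : ℕ} (hn : 0 < n)
    (hD : v (a ^ 3 - b ^ 2) = q ^ n) {P : (shortL a b).toAffine.Point} (X Y : ℕ → L)
    (E : ℕ → ℤ)
    (hX : ∀ j, 1 ≤ j → ∃ h, j • P = Affine.Point.some (X j) (Y j) h)
    (hY : ∀ j, 1 ≤ j → v (Y j) = q ^ E j) (h2 : X 2 = dblX a (X 1) (Y 1)) :
    ∃ c : ℤ, ∀ j : ℕ, 1 ≤ j → ∃ i : ℤ,
      (j : ℤ) * c = nodeIdx v n a (X j) (E j) + n * i ∨
        (j : ℤ) * c + nodeIdx v n a (X j) (E j) = n * i := by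
  obtain ⟨r, hR, hN⟩ := exists_nodeAt hv hq0 hq1 ha hb hn hD
  obtain ⟨-, e4, -⟩ := origin_coeffs hv (a := a) (b := b) (r := r)
  obtain ⟨s, hs⟩ := exists_slope (v := v) (W := (toOrigin (shortL a b) r).toAffine)
  have hinj := pow_right_injective₀ hq0 hq1.ne
  have hBsq : v (toOrigin (shortL a b) r).toAffine.a₄ ^ 2 = q ^ n := by
    rw [show (toOrigin (shortL a b) r).toAffine.a₄ = _ from e4, hR.val_sq]
  set ψ := (originEquiv (shortL a b) r).symm
  have hco : ∀ j, 1 ≤ j → ∃ h', j • ψ P = Affine.Point.some (X j - r) (Y j) h' := fun j hj => by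
    obtain ⟨h, e⟩ := hX j hj
    obtain ⟨h', e'⟩ := origin_symm_some hv (r := r) h
    exact ⟨h', by rw [← map_nsmul, e, e']⟩
  have heq : ∀ j, 1 ≤ j → Y j ^ 2 = X j ^ 3 - 27 * a * X j - 54 * b := fun j hj => by
    obtain ⟨h, -⟩ := hX j hj
    exact equation_shortL h.1
  have hmid : ∀ {x y : L} {h : (toOrigin (shortL a b) r).toAffine.Nonsingular x y},
      E0 v _ (Affine.Point.some x y h + hN.T) → v x ≤ v (3 * r ^ 2 - 27 * a) := by
    intro x y h hE
    rw [← e4]
    by_contra hlt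
    rcases lt_or_ge (v x) 1 with h1 | h1
    · exact (hN.br_add_T (hN.br_self h (not_le.1 hlt) h1)).not_e0 hE
    · refine hN.T_not_e0 ?_
      have := hN.e0_sub hE ((e0_some h).2 h1)
      rwa [add_sub_cancel_left] at this
  -- the residue of the point
  obtain ⟨c, hc⟩ : ∃ c : ℕ, Cl hN s (ψ P) (q ^ c) := by
    obtain ⟨h', e'⟩ := hco 1 le_rfl
    rw [one_nsmul] at e'
    rcases exists_cl hN hs (ψ P) with ⟨-, hc⟩ | ⟨hE, hc⟩ | ⟨g, ⟨hb', hc⟩ | ⟨hb', hc⟩⟩
    · exact ⟨0, by rwa [pow_zero]⟩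
    · rw [e'] at hE
      obtain ⟨-, m, rfl⟩ := middle_double hv hq0 hq1 hR (heq 1 le_rfl) (hmid hE) (hY 1 le_rfl)
        (h2 ▸ heq 2 one_le_two) (hY 2 one_le_two)
      refine ⟨m, ?_⟩
      convert hc using 1
      refine (pow_left_inj₀ zero_le zero_le two_ne_zero).1 ?_
      rw [← pow_mul, mul_comm, hBsq]
    all_goals
      rw [e', br_some] at hb'
      obtain ⟨hg, hβ, hg1, -, -⟩ := hb'
      subst hg
      rw [show (toOrigin (shortL a b) r).toAffine.a₄ = _ from e4] at hβ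
      obtain ⟨hse, he0, hen, -⟩ :=
        nodeIdx_of_branch hv hq0 hq1 hR (heq 1 le_rfl) hβ hg1 (hY 1 le_rfl)
      obtain ⟨m, hm⟩ := Int.eq_ofNat_of_zero_le he0.le
      rw [hm, zpow_natCast] at hse
    · exact ⟨m, hse ▸ hc⟩
    · refine ⟨n - m, ?_⟩
      rwa [pow_sub₀ _ hq0.ne' (by omega), ← div_eq_mul_inv, ← hse, ← hBsq]
  refine ⟨c, fun j hj => ?_⟩
  have hj' := Cl.nsmul hN hs hc j
  obtain ⟨h', e'⟩ := hco j hj
  rw [e', ← pow_mul] at hj'
  obtain ⟨i, ⟨hE, hγ⟩ | ⟨hE, hγ⟩ | ⟨g, hbr, hγ⟩⟩ := Cl.cases hN hj'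
  · rw [nodeIdx_of_one_le hv hq0 hq1 hR (heq j hj) ((e0_some h').1 hE) (hY j hj)]
    rw [hBsq, ← pow_mul] at hγ
    refine ⟨i, Or.inl ?_⟩
    rw [Nat.cast_zero, zero_add, mul_comm (j : ℤ)]
    exact_mod_cast hinj hγ
  · rw [(nodeIdx_of_middle hv hq0 hq1 hR (heq j hj) (hmid hE) (hY j hj)).2]
    have h4 := congrArg (· ^ 2) hγ
    simp only [mul_pow, hBsq, ← pow_mul, ← pow_add] at h4
    have := hinj h4
    refine ⟨i, Or.inl ?_⟩
    have h5 : c * j = n / 2 + n * i := by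
      have e1 : c * j * 2 = n + 2 * (n * i) := by linear_combination this
      omega
    rw [mul_comm (j : ℤ)]
    exact_mod_cast h5
  · have hb' : v (X j - r) = g ∧ v (toOrigin (shortL a b) r).toAffine.a₄ < g ∧ g < 1 := by
      rcases hbr with hb | hb <;> rw [br_some] at hb <;> exact ⟨hb.1, hb.2.1, hb.2.2.1⟩
    obtain ⟨rfl, hβ, hg1⟩ := hb'
    rw [show (toOrigin (shortL a b) r).toAffine.a₄ = _ from e4] at hβ
    obtain ⟨hse, he0, -, hi⟩ := nodeIdx_of_branch hv hq0 hq1 hR (heq j hj) hβ hg1 (hY j hj)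
    rw [hi]
    obtain ⟨m, hm⟩ := Int.eq_ofNat_of_zero_le he0.le
    rw [hm, zpow_natCast] at hse
    rw [hBsq, hse, ← pow_mul] at hγ
    refine ⟨i, ?_⟩
    rw [hm, mul_comm (j : ℤ)]
    rcases hγ with h' | h' <;> rw [← pow_add] at h'
    · exact Or.inl (by exact_mod_cast hinj h')
    · exact Or.inr (by exact_mod_cast hinj h')

end FA.HindrySilverman
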