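import Fermat.Agent.HindrySilverman.Global

/-!
# A lower bound for the height on a semistable elliptic surface over the line

Averaged over the differences of `N` multiples the corrections lose a definite amount at each
singular fibre, and by Szpiro's inequality there are at least `2 m + 2` of those.
-/

set_option autoImplicit false
set_option linter.unusedSectionVars false
set_option linter.style.haveILetI false

noncomputable section

open WeierstrassCurve Polynomial FA.SzpiroLine
open FA.CallSilverman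
open FA.NeronSpecialisation (genW genW_isElliptic)
open scoped Classical

namespace FA.HindrySilverman

variable {k : Type*} [Field k] [CharZero k] [IsAlgClosed k] {A B : k[X]} {m : ℕ}
  (hS : Semistable A B m)
include hS

theorem card_badPlaces : 2 * m + 2 ≤ (badPlaces A B m).card := by
  have hsz := szpiro hS.minimal hS.disc_ne hS.nonconst
  have e : SzpiroLine.conductor A B m = (badPlaces A B m).card := by
    have hroots : ((A ^ 3 - B ^ 2).roots.toFinset.map Function.Embedding.some).filter
        (fun o => 0 < discOrd A B m o) =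
        (A ^ 3 - B ^ 2).roots.toFinset.map Function.Embedding.some :=
      Finset.filter_true_of_mem fun o ho => by
        obtain ⟨t, ht, rfl⟩ := Finset.mem_map.1 ho
        exact (rootMultiplicity_pos hS.disc_ne).2
          ((mem_roots hS.disc_ne).1 (Multiset.mem_toFinset.1 ht))
    rw [SzpiroLine.conductor, badPlaces, Finset.filter_insert, hroots]
    have h1 : (∑ t ∈ (A ^ 3 - B ^ 2).roots.toFinset, if A.IsRoot t then 2 else 1) =
        (A ^ 3 - B ^ 2).roots.toFinset.card := by
      rw [Finset.card_eq_sum_ones]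
      exact Finset.sum_congr rfl fun t ht =>
        if_neg (hS.finite t ((mem_roots hS.disc_ne).1 (Multiset.mem_toFinset.1 ht)))
    rw [h1]
    by_cases hlt : (A ^ 3 - B ^ 2).natDegree < 12 * m
    · rw [if_pos hlt, if_neg (by have := hS.infinite hlt; omega),
        if_pos (show 0 < discOrd A B m none by simp only [discOrd]; omega),
        Finset.card_insert_of_notMem (by simp), Finset.card_map]
    · rw [if_neg hlt, if_neg (show ¬0 < discOrd A B m none by simp only [discOrd]; omega),
        Finset.card_map, add_zero]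
  omega

theorem sum_mean_le :
    ∑ o ∈ badPlaces A B m, (((discOrd A B m o : ℝ)) ^ 2 - 1) / (6 * (discOrd A B m o : ℝ)) ≤
      2 * (m : ℝ) - ((m : ℝ) + 2) / 18 := by
  have h : ∀ o ∈ badPlaces A B m,
      (((discOrd A B m o : ℝ)) ^ 2 - 1) / (6 * (discOrd A B m o : ℝ)) ≤
        (37 / 216 : ℝ) * (discOrd A B m o : ℝ) - 1 / 18 := fun o ho => by
    have hn : (0 : ℝ) < discOrd A B m o := Nat.cast_pos.2 (Finset.mem_filter.1 ho).2
    rw [div_le_iff₀ (by positivity)]
    nlinarith [sq_nonneg ((discOrd A B m o : ℝ) - 6)]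
  refine (Finset.sum_le_sum h).trans ?_
  rw [Finset.sum_sub_distrib, ← Finset.mul_sum, ← Nat.cast_sum, sum_discOrd hS, Finset.sum_const,
    nsmul_eq_mul]
  have hc : (2 * (m : ℝ) + 2) ≤ ((badPlaces A B m).card : ℝ) := by
    exact_mod_cast card_badPlaces hS
  push_cast
  linarith

variable [(genW (shortW A B)).IsElliptic]

/-- **The averaged inequality.** -/
theorem mean_le {P : (genW (shortW A B)).toAffine.Point} (hP : ¬IsOfFinAddOrder P) (N : ℕ) :
    (N : ℝ) ^ 2 * ((m : ℝ) + 2) / 18 - 2 * m * N ≤
      (N : ℝ) ^ 2 * ((N : ℝ) ^ 2 - 1) / 6 * genHgt (shortW A B) P := by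
  obtain ⟨-, hpar, -⟩ := FA.LangNeron.genHgt_spec (shortW_Δ_ne hS)
  choose! c hc using fun (o : Option k) (ho : o ∈ badPlaces A B m) =>
    exists_residues hS hP (Finset.mem_filter.1 ho).2
  set h := genHgt (shortW A B) P with hh
  have key : ∀ a b : Fin N, (if a = b then 0 else 2 * (m : ℝ)) -
      ∑ o ∈ badPlaces A B m, kern (discOrd A B m o) (((a : ℤ) - b) * c o) ≤
        ((a : ℝ) - b) ^ 2 * h := by
    intro a b
    rcases eq_or_ne a b with rfl | hne
    · simp [kern_zero]
    rw [if_neg hne]
    set r := ((a : ℤ) - b).natAbs with hr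
    have hr1 : 1 ≤ r := by
      have : (a : ℕ) ≠ b := fun e => hne (Fin.ext e)
      omega
    obtain ⟨x, y, hns, e, -⟩ := exists_some_of_not_torsion (not_torsion_nsmul hP hr1)
    have h1 := genHgt_eq hS (x := x) (y := y) (h := hns) (e ▸ not_torsion_nsmul hP hr1)
    rw [← e, FA.Height.map_nsmul_of_law hpar, ← hh] at h1
    have h2 : (r : ℝ) ^ 2 = ((a : ℝ) - b) ^ 2 := by
      rw [hr, Nat.cast_natAbs, Int.cast_abs, sq_abs]
      push_cast
      rfl
    have h3 : corrSum A B m x y =
        ∑ o ∈ badPlaces A B m, kern (discOrd A B m o) (((a : ℤ) - b) * c o) :=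
      Finset.sum_congr rfl fun o ho => by
        rw [hc o ho r hr1 x y hns e]
        rcases Int.natAbs_eq ((a : ℤ) - b) with hab | hab <;> rw [← hr] at hab <;> rw [hab]
        rw [neg_mul, kern_neg]
    have h4 : 2 * (m : ℝ) ≤ poleDeg m x := by
      exact_mod_cast (show 2 * m ≤ poleDeg m x by simp only [poleDeg]; omega)
    rw [← h2, h1, h3]
    linarith
  have hsum := Finset.sum_le_sum fun a (_ : a ∈ (Finset.univ : Finset (Fin N))) =>
    Finset.sum_le_sum fun b (_ : b ∈ (Finset.univ : Finset (Fin N))) => key a b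
  simp only [Finset.sum_sub_distrib, ← Finset.sum_mul, sum_sq_diff] at hsum
  have hdiag : ∑ a : Fin N, ∑ b : Fin N, (if a = b then 0 else 2 * (m : ℝ)) =
      2 * (m : ℝ) * ((N : ℝ) ^ 2 - N) := by
    have e : ∀ a b : Fin N, (if a = b then 0 else 2 * (m : ℝ)) =
        2 * (m : ℝ) - if a = b then 2 * (m : ℝ) else 0 := fun a b => by split_ifs <;> simp
    simp only [e, Finset.sum_sub_distrib, Finset.sum_ite_eq, Finset.mem_univ, if_true,
      Finset.sum_const, Finset.card_univ, Fintype.card_fin, nsmul_eq_mul]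
    ring
  have hK : ∑ a : Fin N, ∑ b : Fin N,
      ∑ o ∈ badPlaces A B m, kern (discOrd A B m o) (((a : ℤ) - b) * c o) ≤
      (N : ℝ) ^ 2 * (2 * (m : ℝ) - ((m : ℝ) + 2) / 18) := by
    rw [Finset.sum_congr rfl fun a _ => Finset.sum_comm, Finset.sum_comm]
    refine (Finset.sum_le_sum fun o _ => sum_kern_le _ (c o) N).trans ?_
    rw [← Finset.mul_sum]
    exact mul_le_mul_of_nonneg_left (sum_mean_le hS) (sq_nonneg _)
  rw [hdiag] at hsum
  linarith

/-- **The lower bound.** -/
theorem height_ge {P : (genW (shortW A B)).toAffine.Point} (hP : ¬IsOfFinAddOrder P) :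
    ((m : ℝ) + 6) / 26235 ≤ genHgt (shortW A B) P := by
  have h := mean_le hS hP 54
  norm_num at h ⊢
  linarith

/-- **Integral multiples.** -/
theorem le_of_integral {P : (genW (shortW A B)).toAffine.Point} (hP : ¬IsOfFinAddOrder P) {r : ℕ}
    {p : k[X]} {y : RatFunc k} {hns} (hr : r • P =
      Affine.Point.some (algebraMap k[X] (RatFunc k) p) y hns) (hp : p.natDegree ≤ 2 * m) :
    r ≤ 229 := by
  by_contra hlt
  have hr1 : 0 < r := by omega
  obtain ⟨-, hpar, -⟩ := FA.LangNeron.genHgt_spec (shortW_Δ_ne hS)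
  have h1 := genHgt_eq hS (h := hns) (hr ▸ not_torsion_nsmul hP hr1)
  rw [← hr, FA.Height.map_nsmul_of_law hpar] at h1
  have h2 : poleDeg m (algebraMap k[X] (RatFunc k) p) = 2 * m := by
    simp only [poleDeg, RatFunc.num_algebraMap, RatFunc.denom_algebraMap, natDegree_one]
    omega
  rw [h2] at h1
  have h3 := (corrSum_le hS (algebraMap k[X] (RatFunc k) p) y).1
  have h4 := height_ge hS hP
  have hm : (0 : ℝ) ≤ m := Nat.cast_nonneg m
  have hr2 : (52900 : ℝ) ≤ (r : ℝ) ^ 2 := by
    have : (230 : ℝ) ≤ r := by exact_mod_cast (show 230 ≤ r by omega)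
    nlinarith
  have h5 : 52900 * (((m : ℝ) + 6) / 26235) ≤ (r : ℝ) ^ 2 * genHgt (shortW A B) P :=
    mul_le_mul hr2 h4 (by positivity) (sq_nonneg _)
  push_cast at h1
  linarith

end FA.HindrySilverman
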