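import Fermat.Agent.HindrySilverman.Count

/-!
# The narrow Mordell–Weil lattice

The points with nonsingular reduction at every point of the line form a subgroup without torsion,
every point has a positive multiple in it, and on it the height is an even integer at least `2 m`.
-/

set_option autoImplicit false
set_option linter.unusedSectionVars false
set_option linter.style.haveILetI false

noncomputable section

open WeierstrassCurve Polynomial FA.Local FA.LevinTorsion FA.SzpiroLine FA.CoxParry
open FA.CallSilverman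
open FA.NeronSpecialisation (genW genW_isElliptic)
open FA.FunctionFieldRank (pointMap pointMap_some)
open scoped Classical

namespace FA.HindrySilverman

section Local

variable {L Γ : Type*} [Field L] [LinearOrderedCommGroupWithZero Γ] {v : Valuation L Γ}
  (hv : ∀ n : ℤ, n ≠ 0 → v (n : L) = 1)
include hv

/-- Outside the node means nonsingular reduction. -/
theorem one_le_sub_iff {q : Γ} (hq0 : 0 < q) (hq1 : q < 1) {n : ℕ} {a b r : L}
    (hR : NodeAt v q n a b r) {x y : L} (heq : y ^ 2 = x ^ 3 - 27 * a * x - 54 * b) :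
    1 ≤ v (x - r) ↔ 1 ≤ v y ∨ 1 ≤ v (3 * x ^ 2 - 27 * a) := by
  set s := x - r with hs
  set β := 3 * r ^ 2 - 27 * a with hβ
  have hfx : 3 * x ^ 2 - 27 * a = 3 * s ^ 2 + 6 * r * s + β := by simp only [hs, hβ]; ring
  constructor
  · intro h
    by_contra hc
    rw [not_or, not_le, not_le] at hc
    obtain ⟨hy, hf⟩ := hc
    rcases h.lt_or_eq with h1 | h1
    · have := val_sq_of_one_lt hv hq0 hq1 hR heq h1
      exact absurd (this ▸ pow_lt_one₀ zero_le hy two_ne_zero) (not_lt.2 (one_le_pow₀ h))
    have h2 : v (s * (s ^ 2 + 3 * r * s + β)) < 1 := by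
      rw [← hR_quad hv hq0 hq1 hR, ← heq, map_pow]; exact pow_lt_one₀ zero_le hy two_ne_zero
    rw [map_mul, ← h1, one_mul] at h2
    have h3 : v (s ^ 2 - β) = 1 := by
      rw [v.map_sub_eq_of_lt_left] <;> rw [map_pow, ← h1, one_pow]
      exact hR.val_lt
    rw [show s ^ 2 - β = (3 * x ^ 2 - 27 * a) - 2 * (s ^ 2 + 3 * r * s + β) by rw [hfx]; ring] at h3
    exact absurd h3 (v.map_sub_lt hf (map_mul_lt_one le_two h2)).ne
  · intro h
    by_contra h1
    rw [not_le] at h1
    have hs2 : v (s ^ 2) < 1 := by rw [map_pow]; exact pow_lt_one₀ zero_le h1 two_ne_zero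
    rcases h with h | h
    · refine absurd ((one_le_pow₀ h : 1 ≤ v y ^ 2)) (not_le.2 ?_)
      rw [← map_pow, heq, hR_quad hv hq0 hq1 hR]
      refine map_mul_lt_one' h1 (v.map_add_le (v.map_add_le hs2.le ?_) hR.val_lt.le)
      rw [map_mul, map_mul, val_ofNat hv 3, hR.val_r, one_mul, one_mul]
      exact h1.le
    · refine absurd h (not_le.2 ?_)
      rw [hfx]
      refine v.map_add_lt (v.map_add_lt ?_ ?_) hR.val_lt
      · rwa [map_mul, val_ofNat hv 3, one_mul]
      · rwa [map_mul, map_mul, val_ofNat hv 6, hR.val_r, one_mul, one_mul]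

/-- At a good place every point reduces to a nonsingular one. -/
theorem smooth_of_good {a b : L} (ha : v a ≤ 1) (hb : v b ≤ 1) (hD : v (a ^ 3 - b ^ 2) = 1)
    {x y : L} (heq : y ^ 2 = x ^ 3 - 27 * a * x - 54 * b) :
    1 ≤ v y ∨ 1 ≤ v (3 * x ^ 2 - 27 * a) := by
  have hE : (shortL a b).toAffine.Equation x y := by
    rw [Affine.equation_iff]; simp only [shortL]; linear_combination heq
  rcases lt_or_ge 1 (v x) with hx | hx
  · refine Or.inl (by_contra fun hy => ?_)
    rw [not_le] at hy
    have h13 : v x < v x ^ 3 := lt_self_pow₀ hx (by norm_num)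
    have : v y ^ 2 = v x ^ 3 := by
      rw [← map_pow, heq, sub_sub, v.map_sub_eq_of_lt_left, map_pow]
      rw [map_pow]
      refine v.map_add_lt ?_ ?_
      · rw [map_mul, map_mul, val_ofNat hv 27, one_mul]
        exact (mul_le_of_le_one_left' ha).trans_lt h13
      · rw [map_mul, val_ofNat hv 54, one_mul]; exact hb.trans_lt (hx.trans h13)
    exact absurd (this ▸ pow_lt_one₀ zero_le hy two_ne_zero) (not_lt.2 (one_le_pow₀ hx.le))
  · rcases nsRed_of_good hv ha hb hD hE hx with h | h
    · simp only [fy, shortL, zero_mul, add_zero] at h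
      rw [map_mul, val_ofNat hv 2, one_mul] at h
      exact Or.inl h.ge
    · simp only [fx, shortL, mul_zero, zero_mul, add_zero, sub_zero, neg_mul,
        ← sub_eq_add_neg] at h
      exact Or.inr h.ge

end Local

variable {k : Type*} [Field k] [CharZero k] [IsAlgClosed k] {A B : k[X]} {m : ℕ}

/-- Nonsingular reduction at a point of the line. -/
def SmoothAt (A : k[X]) (m : ℕ) (o : Option k) (x y : RatFunc k) : Prop :=
  (y ≠ 0 ∧ placeOrd (3 * m) o y ≤ 0) ∨
    (3 * x ^ 2 - 27 * algebraMap k[X] (RatFunc k) A ≠ 0 ∧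
      placeOrd (4 * m) o (3 * x ^ 2 - 27 * algebraMap k[X] (RatFunc k) A) ≤ 0)

/-- The identity or a point with nonsingular reduction at a point of the line. -/
def SmoothPt (A B : k[X]) (m : ℕ) (o : Option k) : (genW (shortW A B)).toAffine.Point → Prop
  | .zero => True
  | .some x y _ => SmoothAt A m o x y

theorem compCorr_of_smooth {o : Option k} {x y : RatFunc k} (h : SmoothAt A m o x y) :
    compCorr A B m o x y = 0 := by
  have : component A B m o x y = 0 := by
    unfold component
    split_ifs with hc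
    · rcases h with ⟨-, h⟩ | ⟨h1, h2⟩
      · rw [Int.toNat_of_nonpos h, Nat.zero_min]
      · rcases hc with hc | hc
        · exact absurd hc h1
        · omega
    · rfl
  rw [compCorr, this]
  simp

variable (hS : Semistable A B m)
include hS

theorem sum_placeOrd_eq_zero {d : ℕ} {z : RatFunc k} (h : ∀ o, placeOrd d o z = 0) : d = 0 := by
  set S := z.num.roots.toFinset ∪ z.denom.roots.toFinset with hSdef
  have h1 := sum_rootMultiplicity (p := z.num) (S := S) (by simp [hSdef])
  have h2 := sum_rootMultiplicity (p := z.denom) (S := S) (by simp [hSdef])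
  have h3 : ∀ t, z.num.rootMultiplicity t = z.denom.rootMultiplicity t := fun t => by
    have := h (some t)
    simp only [placeOrd] at this
    omega
  simp only [h3] at h1
  have h4 := h none
  simp only [placeOrd, RatFunc.intDegree] at h4
  omega

/-- **The model at a point of the line.** -/
theorem exists_model_at [(genW (shortW A B)).IsElliptic] (o : Option k) :
    ∃ (V : ValuationSubring (AlgebraicClosure (RatFunc k))) (q : V.ValueGroup)
      (a b u : AlgebraicClosure (RatFunc k)) (_ : (shortL a b).IsElliptic)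
      (Φ : (genW (shortW A B)).toAffine.Point →+ (shortL a b).toAffine.Point),
      (∀ n : ℤ, n ≠ 0 → V.valuation (n : AlgebraicClosure (RatFunc k)) = 1) ∧ 0 < q ∧ q < 1 ∧
      V.valuation a ≤ 1 ∧ V.valuation b ≤ 1 ∧
      V.valuation (a ^ 3 - b ^ 2) = q ^ discOrd A B m o ∧
      (0 < discOrd A B m o → V.valuation a = 1) ∧ Function.Injective Φ ∧
      let j := algebraMap (RatFunc k) (AlgebraicClosure (RatFunc k))
      (∀ (x y : RatFunc k) (h : (genW (shortW A B)).toAffine.Nonsingular x y),
        ∃ h', Φ (Affine.Point.some x y h) = Affine.Point.some (j x / u ^ 2) (j y / u ^ 3) h') ∧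
      (∀ y : RatFunc k, y ≠ 0 → V.valuation (j y / u ^ 3) = q ^ placeOrd (3 * m) o y) ∧
      (∀ x : RatFunc k,
          max 1 (V.valuation (j x / u ^ 2)) * q ^ (-placeOrd (2 * m) o x).toNat = 1) ∧
      (∀ f : RatFunc k, f ≠ 0 → V.valuation (j f / u ^ 4) = q ^ placeOrd (4 * m) o f) ∧
      (∀ x : RatFunc k, 3 * (j x / u ^ 2) ^ 2 - 27 * a =
        j (3 * x ^ 2 - 27 * algebraMap k[X] (RatFunc k) A) / u ^ 4) := by
  set j := algebraMap (RatFunc k) (AlgebraicClosure (RatFunc k))
  set g := algebraMap k[X] (RatFunc k)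
  obtain ⟨V, q, u, hq0, hq1, hu, hv, hval⟩ := exists_place m o j
  have hu' : j u ≠ 0 := (map_ne_zero j).2 hu
  have hsa := zpow_right_strictAnti₀ hq0 hq1
  have hle : ∀ (p : k[X]) (d : ℕ), p.natDegree ≤ d * m →
      V.valuation (j (g p) / j u ^ d) ≤ 1 := fun p d hp => by
    rcases eq_or_ne p 0 with rfl | hp0
    · simp
    · rw [hval d _ (RatFunc.algebraMap_ne_zero hp0), ← zpow_zero q]
      exact hsa.antitone (placeOrd_poly_nonneg hp o)
  have hD : V.valuation ((j (g A) / j u ^ 4) ^ 3 - (j (g B) / j u ^ 6) ^ 2) =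
      q ^ discOrd A B m o := by
    rw [show (j (g A) / j u ^ 4) ^ 3 - (j (g B) / j u ^ 6) ^ 2 =
      j (g (A ^ 3 - B ^ 2)) / j u ^ 12 by
        simp only [map_sub, map_pow]; ring, hval 12 _ (RatFunc.algebraMap_ne_zero hS.disc_ne),
      placeOrd_disc hS, zpow_natCast]
  have hell : (shortL (j (g A) / j u ^ 4) (j (g B) / j u ^ 6)).IsElliptic := isElliptic_shortL hv
    (V.valuation.ne_zero_iff.1 (hD ▸ pow_ne_zero _ hq0.ne'))
  have hmap : (genW (shortW A B)).map j = shortL (j (g A)) (j (g B)) := by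
    rw [genW_shortW, map_shortEq]
  haveI : (shortL (j (g A)) (j (g B))).IsElliptic := by rw [← hmap]; infer_instance
  obtain ⟨φ, hφ⟩ := FA.CoxParry.exists_scaleEquiv (a := j (g A)) (b := j (g B)) hu'
  refine ⟨V, q, _, _, j u, hell, φ.toAddMonoidHom.comp (pointMap j hmap), hv, hq0, hq1,
    hle A 4 hS.minimal.1, hle B 6 hS.minimal.2.1, hD, fun ho => ?_,
    φ.injective.comp (FA.FunctionFieldRank.pointMap_injective j hmap), fun x y h => ?_,
    fun y hy => hval 3 y hy, fun x => ?_, fun f hf => hval 4 f hf, fun x => ?_⟩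
  · rw [hval 4 _ (RatFunc.algebraMap_ne_zero (ne_zero_of_nonconst hS.disc_ne hS.nonconst).1),
      placeOrd_A hS ho, zpow_zero]
  · have hns' : (shortL (j (g A)) (j (g B))).toAffine.Nonsingular (j x) (j y) :=
      hmap ▸ ((genW (shortW A B)).toAffine.map_nonsingular j.injective x y).2 h
    obtain ⟨h', e'⟩ := hφ _ _ hns'
    exact ⟨h', by rw [AddMonoidHom.comp_apply, pointMap_some]; exact e'⟩
  · rcases eq_or_ne x 0 with rfl | hx
    · have : (-placeOrd (2 * m) o (0 : RatFunc k)).toNat = 0 := by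
        cases o <;> simp [placeOrd, RatFunc.num_zero, RatFunc.denom_zero, rootMultiplicity_eq_zero]
      simp [this]
    rw [hval 2 x hx]
    set c := placeOrd (2 * m) o x
    rcases le_total c 0 with hc | hc
    · rw [max_eq_right (by rw [← zpow_zero q]; exact hsa.antitone hc), ← zpow_natCast,
        Int.toNat_of_nonneg (neg_nonneg.2 hc), ← zpow_add₀ hq0.ne', add_neg_cancel, zpow_zero]
    · rw [max_eq_left (by rw [← zpow_zero q]; exact hsa.antitone hc),
        show (-c).toNat = 0 by omega, pow_zero, one_mul]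
  · simp only [map_sub, map_mul, map_pow, map_ofNat]
    ring

theorem smoothAt_iff {L Γ : Type*} [Field L] [LinearOrderedCommGroupWithZero Γ]
    {v : Valuation L Γ} {q : Γ} (hq0 : 0 < q) (hq1 : q < 1) {j : RatFunc k →+* L} {a u : L}
    {o : Option k}
    (hy : ∀ y : RatFunc k, y ≠ 0 → v (j y / u ^ 3) = q ^ placeOrd (3 * m) o y)
    (hf : ∀ f : RatFunc k, f ≠ 0 → v (j f / u ^ 4) = q ^ placeOrd (4 * m) o f)
    (he : ∀ x : RatFunc k, 3 * (j x / u ^ 2) ^ 2 - 27 * a =
      j (3 * x ^ 2 - 27 * algebraMap k[X] (RatFunc k) A) / u ^ 4) (x y : RatFunc k) :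
    SmoothAt A m o x y ↔ 1 ≤ v (j y / u ^ 3) ∨ 1 ≤ v (3 * (j x / u ^ 2) ^ 2 - 27 * a) := by
  have key : ∀ (z : RatFunc k) (i d : ℕ),
      (z ≠ 0 → v (j z / u ^ i) = q ^ placeOrd d o z) →
      ((z ≠ 0 ∧ placeOrd d o z ≤ 0) ↔ 1 ≤ v (j z / u ^ i)) := fun z i d hz => by
    rcases eq_or_ne z 0 with rfl | h0
    · simp
    rw [hz h0, ← zpow_zero q, and_iff_right h0]
    exact ((zpow_right_strictAnti₀ hq0 hq1).le_iff_ge).symm
  rw [he, SmoothAt, key _ 3 _ (hy y), key _ 4 _ (hf _)]

variable [(genW (shortW A B)).IsElliptic]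

/-- Nonsingular reduction is `E0` on a nodal model. -/
theorem exists_smooth_model {o : Option k} (ho : 0 < discOrd A B m o) :
    ∃ (V : ValuationSubring (AlgebraicClosure (RatFunc k)))
      (W : WeierstrassCurve (AlgebraicClosure (RatFunc k))) (hN : Node V.valuation W.toAffine)
      (Θ : (genW (shortW A B)).toAffine.Point →+ W.toAffine.Point),
      (∀ P, SmoothPt A B m o P ↔ E0 V.valuation W.toAffine (Θ P)) ∧
        ∀ (x y : RatFunc k) (h : (genW (shortW A B)).toAffine.Nonsingular x y),
          y ≠ 0 → discOrd A B m o = 1 →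
          E0 V.valuation W.toAffine (Θ (Affine.Point.some x y h)) ∨
            E0 V.valuation W.toAffine (Θ (Affine.Point.some x y h) + hN.T) := by
  set j := algebraMap (RatFunc k) (AlgebraicClosure (RatFunc k))
  obtain ⟨V, q, a, b, u, hell, Φ, hv, hq0, hq1, ha, hb, hD, ha1, -, hΦ, hy', -, hf', he⟩ :=
    exists_model_at hS o
  obtain ⟨r, hR, hN⟩ := exists_nodeAt hv hq0 hq1 (ha1 ho) hb ho hD
  obtain ⟨-, e4, -⟩ := origin_coeffs hv (a := a) (b := b) (r := r)
  refine ⟨V, toOrigin (shortL a b) r, hN,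
    (originEquiv (shortL a b) r).symm.toAddMonoidHom.comp Φ, fun P => ?_, fun x y h hy hn => ?_⟩
  · rcases P with _ | ⟨x, y, h⟩
    · exact iff_of_true trivial (by
        rw [← Affine.Point.zero_def, map_zero]; exact e0_zero)
    obtain ⟨h', e⟩ := hΦ x y h
    obtain ⟨h'', e'⟩ := origin_symm_some hv (r := r) h'
    rw [AddMonoidHom.comp_apply, e, AddEquiv.coe_toAddMonoidHom, e', e0_some]
    exact (smoothAt_iff hS hq0 hq1 hy' hf' he x y).trans
      (one_le_sub_iff hv hq0 hq1 hR (equation_shortL h'.1)).symm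
  · obtain ⟨h', e⟩ := hΦ x y h
    obtain ⟨h'', e'⟩ := origin_symm_some hv (r := r) h'
    rw [AddMonoidHom.comp_apply, e, AddEquiv.coe_toAddMonoidHom, e']
    rcases le_or_gt 1 (V.valuation (j x / u ^ 2 - r)) with h1 | h1
    · exact Or.inl ((e0_some h'').2 h1)
    rcases le_or_gt (V.valuation (j x / u ^ 2 - r)) (V.valuation (3 * r ^ 2 - 27 * a)) with h2 | h2
    · exact Or.inr (hN.e0_add_T_of_le h'' (by rwa [← e4] at h2))
    · obtain ⟨-, he0, hen, -⟩ :=
        nodeIdx_of_branch hv hq0 hq1 hR (equation_shortL h'.1) h2 h1 (hy' y hy)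
      omega

theorem smoothPt_of_good {o : Option k} (ho : discOrd A B m o = 0)
    (P : (genW (shortW A B)).toAffine.Point) : SmoothPt A B m o P := by
  rcases P with _ | ⟨x, y, h⟩
  · trivial
  obtain ⟨V, q, a, b, u, hell, Φ, hv, hq0, hq1, ha, hb, hD, -, -, hΦ, hy', -, hf', he⟩ :=
    exists_model_at hS o
  rw [ho, pow_zero] at hD
  obtain ⟨h', -⟩ := hΦ x y h
  exact (smoothAt_iff hS hq0 hq1 hy' hf' he x y).2
    (smooth_of_good hv ha hb hD (equation_shortL h'.1))

/-- **The narrow subgroup.** -/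
def narrow : AddSubgroup (genW (shortW A B)).toAffine.Point where
  carrier := {P | ∀ o, SmoothPt A B m o P}
  zero_mem' := fun _ => trivial
  add_mem' {P Q} hP hQ o := by
    rcases Nat.eq_zero_or_pos (discOrd A B m o) with h | h
    · exact smoothPt_of_good hS h _
    obtain ⟨V, W, hN, Θ, hΘ, -⟩ := exists_smooth_model hS h
    rw [hΘ, map_add]
    exact hN.e0_add ((hΘ P).1 (hP o)) ((hΘ Q).1 (hQ o))
  neg_mem' {P} hP o := by
    rcases Nat.eq_zero_or_pos (discOrd A B m o) with h | h
    · exact smoothPt_of_good hS h _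
    obtain ⟨V, W, hN, Θ, hΘ, -⟩ := exists_smooth_model hS h
    rw [hΘ, map_neg, e0_neg]
    exact (hΘ P).1 (hP o)

theorem mem_narrow {P : (genW (shortW A B)).toAffine.Point} :
    P ∈ narrow hS ↔ ∀ o, SmoothPt A B m o P := Iff.rfl

/-- **No torsion in the narrow subgroup.** -/
theorem narrow_torsion_free {P : (genW (shortW A B)).toAffine.Point} (hP : P ∈ narrow hS)
    (hT : IsOfFinAddOrder P) : P = 0 := by
  rcases P with _ | ⟨x, y, h⟩
  · rfl
  exfalso
  set j := algebraMap (RatFunc k) (AlgebraicClosure (RatFunc k))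
  set f := 3 * x ^ 2 - 27 * algebraMap k[X] (RatFunc k) A with hfdef
  have key : ∀ o, if y = 0 then f ≠ 0 ∧ placeOrd (4 * m) o f = 0
      else placeOrd (3 * m) o y = 0 := by
    intro o
    obtain ⟨V, q, a, b, u, hell, Φ, hv, hq0, hq1, ha, hb, hD, -, -, hΦ, hy', -, hf', he⟩ :=
      exists_model_at hS o
    have hinj := (zpow_right_strictAnti₀ hq0 hq1).injective
    obtain ⟨h', e⟩ := hΦ x y h
    have hT' := Φ.isOfFinAddOrder hT
    rw [e] at hT'
    have hI := intCoeff_shortL hv ha hb
    have hx := FA.CoxParry.val_x_le_one hv hI hT'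
    have hu : u = 0 → False := fun hu => by
      have := hy' 1 one_ne_zero
      rw [hu, zero_pow three_ne_zero, div_zero, map_zero] at this
      exact zpow_ne_zero _ hq0.ne' this.symm
    have hyl := le_y_of_le_x hI h'.1 hx
    have hfl : V.valuation (3 * (j x / u ^ 2) ^ 2 - 27 * a) ≤ 1 := by
      refine V.valuation.map_sub_le ?_ ?_
      · rw [map_mul, val_ofNat hv 3, one_mul, map_pow]; exact pow_le_one₀ zero_le hx
      · rwa [map_mul, val_ofNat hv 27, one_mul]
    have hsm : NsRed V.valuation (shortL a b).toAffine (j x / u ^ 2) (j y / u ^ 3) := by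
      rcases (smoothAt_iff hS hq0 hq1 hy' hf' he x y).1 (hP o) with h1 | h1
      · refine Or.inl ?_
        simp only [fy, shortL, zero_mul, add_zero]
        rw [map_mul, val_ofNat hv 2, one_mul]
        exact le_antisymm hyl h1
      · refine Or.inr ?_
        simp only [fx, shortL, mul_zero, zero_mul, add_zero, sub_zero, neg_mul,
          ← sub_eq_add_neg]
        exact le_antisymm hfl h1
    have h1 := val_fO_of_nsRed hv hI hT' rfl rfl hsm
    split_ifs with hy
    · rw [fO, if_pos (by rw [hy, map_zero, zero_div])] at h1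
      simp only [fx, shortL, mul_zero, zero_mul, add_zero, sub_zero, neg_mul,
        ← sub_eq_add_neg] at h1
      rw [he] at h1
      have hf0 : f ≠ 0 := fun e0 => by
        rw [← hfdef, e0, map_zero, zero_div, map_zero] at h1; exact zero_ne_one h1
      rw [hf' f hf0, ← zpow_zero q] at h1
      exact ⟨hf0, hinj h1⟩
    · rw [fO, if_neg (div_ne_zero ((map_ne_zero j).2 hy) (pow_ne_zero _ hu)), hy' y hy,
        ← zpow_zero q] at h1
      exact hinj h1
  have hm := pos_level hS.minimal hS.disc_ne hS.nonconst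
  by_cases hy : y = 0
  · simp only [if_pos hy] at key
    have := sum_placeOrd_eq_zero hS (d := 4 * m) (z := f) fun o => (key o).2
    omega
  · simp only [if_neg hy] at key
    have := sum_placeOrd_eq_zero hS (d := 3 * m) (z := y) key
    omega

theorem not_torsion_of_narrow {P : (genW (shortW A B)).toAffine.Point} (hP : P ∈ narrow hS)
    (h0 : P ≠ 0) : ¬IsOfFinAddOrder P := fun h => h0 (narrow_torsion_free hS hP h)

/-- **A multiple of every point is narrow.** -/
theorem exists_nsmul_narrow (P : (genW (shortW A B)).toAffine.Point) :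
    ∃ N : ℕ, 0 < N ∧ N • P ∈ narrow hS := by
  by_cases hP : IsOfFinAddOrder P
  · obtain ⟨N, hN, e⟩ := isOfFinAddOrder_iff_nsmul_eq_zero.1 hP
    exact ⟨N, hN, e ▸ zero_mem _⟩
  set N := ∏ o ∈ badPlaces A B m, 2 * discOrd A B m o
  refine ⟨N, Finset.prod_pos fun o ho => Nat.mul_pos two_pos (Finset.mem_filter.1 ho).2,
    fun o => ?_⟩
  rcases Nat.eq_zero_or_pos (discOrd A B m o) with h0 | h0
  · exact smoothPt_of_good hS h0 _
  have ho : o ∈ badPlaces A B m := by
    refine Finset.mem_filter.2 ⟨?_, h0⟩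
    cases o with
    | none => exact Finset.mem_insert_self _ _
    | some t =>
      refine Finset.mem_insert_of_mem (Finset.mem_map.2 ⟨t, ?_, rfl⟩)
      rw [Multiset.mem_toFinset, mem_roots hS.disc_ne]
      exact (rootMultiplicity_pos hS.disc_ne).1 h0
  obtain ⟨V, W, hN, Θ, hΘ, hone⟩ := exists_smooth_model hS h0
  obtain ⟨d, hd⟩ : 2 * discOrd A B m o ∣ N := Finset.dvd_prod_of_mem _ ho
  rw [hd, hΘ, mul_nsmul, map_nsmul]
  refine hN.e0_nsmul ?_ d
  obtain ⟨x, y, h, e, hy⟩ := exists_some_of_not_torsion (not_torsion_nsmul hP h0)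
  rw [mul_comm, mul_nsmul, e, map_nsmul, two_nsmul]
  obtain ⟨c, hc⟩ := exists_residues hS hP h0
  have hcorr := hc _ h0 x y h e
  rw [← add_zero ((discOrd A B m o : ℤ) * c), add_comm, kern_add_mul, kern_zero] at hcorr
  rcases Nat.lt_or_ge 1 (discOrd A B m o) with h1 | h1
  · have hsm : SmoothAt A m o x y := by
      have hi : component A B m o x y = 0 := by
        have hle : 2 * component A B m o x y ≤ discOrd A B m o := by
          unfold component; split_ifs <;> omega
        have hle' : (2 : ℝ) * component A B m o x y ≤ discOrd A B m o := by exact_mod_cast hle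
        have hn : (0 : ℝ) < discOrd A B m o := Nat.cast_pos.2 h0
        rw [compCorr, div_eq_zero_iff, mul_eq_zero] at hcorr
        rcases hcorr with (h' | h') | h'
        · exact_mod_cast h'
        · linarith [(Nat.cast_nonneg _ : (0 : ℝ) ≤ component A B m o x y)]
        · exact absurd h' hn.ne'
      unfold component at hi
      split_ifs at hi with hcond
      · exact Or.inl ⟨hy, by omega⟩
      · rw [not_or, not_lt] at hcond
        exact Or.inr hcond
    have := (hΘ (Affine.Point.some x y h)).1 hsm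
    exact hN.e0_add this this
  · rcases hone x y h hy (by omega) with h' | h'
    · exact hN.e0_add h' h'
    · have := hN.e0_add h' h'
      rwa [add_add_add_comm, hN.T_add_T, add_zero] at this

/-- The pole degree is even. -/
theorem even_poleDeg {x y : RatFunc k} (h : (genW (shortW A B)).toAffine.Nonsingular x y) :
    ∃ z : ℕ, poleDeg m x = 2 * z + 2 * m := by
  set j := algebraMap (RatFunc k) (AlgebraicClosure (RatFunc k))
  have key : ∀ o, 2 ∣ (-placeOrd (2 * m) o x).toNat := by
    intro o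
    obtain ⟨V, q, a, b, u, hell, Φ, hv, hq0, hq1, ha, hb, -, -, -, hΦ, hy', hx', -, -⟩ :=
      exists_model_at hS o
    obtain ⟨h', -⟩ := hΦ x y h
    set p := (-placeOrd (2 * m) o x).toNat
    have hp := hx' x
    rcases le_or_gt (V.valuation (j x / u ^ 2)) 1 with h1 | h1
    · rw [max_eq_left h1, one_mul] at hp
      rw [show p = 0 from pow_right_injective₀ hq0 hq1.ne (hp.trans (pow_zero q).symm)]
      exact dvd_zero _
    have heq := equation_shortL h'.1
    have h13 : V.valuation (j x / u ^ 2) < V.valuation (j x / u ^ 2) ^ 3 :=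
      lt_self_pow₀ h1 (by norm_num)
    have hy2 : V.valuation (j y / u ^ 3) ^ 2 = V.valuation (j x / u ^ 2) ^ 3 := by
      rw [← map_pow, heq, sub_sub, V.valuation.map_sub_eq_of_lt_left, map_pow]
      rw [map_pow]
      refine V.valuation.map_add_lt ?_ ?_
      · rw [map_mul, map_mul, val_ofNat hv 27, one_mul]
        exact (mul_le_of_le_one_left' ha).trans_lt h13
      · rw [map_mul, val_ofNat hv 54, one_mul]; exact hb.trans_lt (h1.trans h13)
    have hy0 : y ≠ 0 := fun e0 => by
      rw [e0, map_zero, zero_div, map_zero, zero_pow two_ne_zero] at hy2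
      exact pow_ne_zero 3 (zero_lt_one.trans h1).ne' hy2.symm
    rw [max_eq_right h1.le] at hp
    have hvx : V.valuation (j x / u ^ 2) = q ^ (-(p : ℤ)) := by
      rw [zpow_neg, zpow_natCast, eq_inv_of_mul_eq_one_left hp]
    rw [hy' y hy0, hvx, ← zpow_natCast, ← zpow_natCast, ← zpow_mul, ← zpow_mul] at hy2
    have := (zpow_right_strictAnti₀ hq0 hq1).injective hy2
    omega
  have hsum := sum_rootMultiplicity (p := x.denom) (S := x.denom.roots.toFinset) subset_rfl
  have h2 : 2 ∣ x.denom.natDegree := by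
    rw [← hsum]
    exact Finset.dvd_sum fun t _ => toNat_pole (2 * m) x t ▸ key (some t)
  obtain ⟨c, hc⟩ := key none
  obtain ⟨d, hd⟩ := h2
  refine ⟨c + d, ?_⟩
  simp only [placeOrd, RatFunc.intDegree] at hc
  simp only [poleDeg]
  push_cast at hc
  omega

/-- **The height on the narrow subgroup.** -/
theorem genHgt_narrow {x y : RatFunc k} {h : (genW (shortW A B)).toAffine.Nonsingular x y}
    (hP : Affine.Point.some x y h ∈ narrow hS) :
    genHgt (shortW A B) (Affine.Point.some x y h) = (poleDeg m x : ℝ) := by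
  rw [genHgt_eq hS (not_torsion_of_narrow hS hP (Affine.Point.some_ne_zero h))]
  have : corrSum A B m x y = 0 := Finset.sum_eq_zero fun o _ => compCorr_of_smooth (hP o)
  rw [this, sub_zero]

theorem genHgt_narrow_even {P : (genW (shortW A B)).toAffine.Point} (hP : P ∈ narrow hS) :
    ∃ z : ℕ, genHgt (shortW A B) P = 2 * (z : ℝ) ∧ (P ≠ 0 → m ≤ z) := by
  rcases P with _ | ⟨x, y, h⟩
  · obtain ⟨-, hpar, -⟩ := FA.LangNeron.genHgt_spec (shortW_Δ_ne hS)
    refine ⟨0, ?_, fun h => absurd rfl h⟩
    rw [← Affine.Point.zero_def, FA.Height.map_zero_of_law hpar]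
    simp
  obtain ⟨z, hz⟩ := even_poleDeg hS h
  refine ⟨z + m, ?_, fun _ => by omega⟩
  rw [genHgt_narrow hS hP, hz]
  push_cast
  ring

/-- **The pairing is integral.** -/
theorem pairing_narrow {P Q : (genW (shortW A B)).toAffine.Point} (hP : P ∈ narrow hS)
    (hQ : Q ∈ narrow hS) : ∃ z : ℤ, genPairing (shortW A B) P Q = z := by
  obtain ⟨z₁, h₁, -⟩ := genHgt_narrow_even hS (add_mem hP hQ)
  obtain ⟨z₂, h₂, -⟩ := genHgt_narrow_even hS hP
  obtain ⟨z₃, h₃, -⟩ := genHgt_narrow_even hS hQ
  refine ⟨(z₁ : ℤ) - z₂ - z₃, ?_⟩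
  rw [genPairing, h₁, h₂, h₃]
  push_cast
  ring

/-- **The minimum** is attained exactly by the integral sections. -/
theorem genHgt_narrow_min {x y : RatFunc k} {h : (genW (shortW A B)).toAffine.Nonsingular x y}
    (hP : Affine.Point.some x y h ∈ narrow hS) :
    genHgt (shortW A B) (Affine.Point.some x y h) = 2 * (m : ℝ) ↔
      ∃ p : k[X], p.natDegree ≤ 2 * m ∧ x = algebraMap k[X] (RatFunc k) p := by
  rw [genHgt_narrow hS hP]
  constructor
  · intro he
    have he' : poleDeg m x = 2 * m := by exact_mod_cast he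
    simp only [poleDeg] at he'
    have hd : x.denom = 1 :=
      (Polynomial.Monic.natDegree_eq_zero (RatFunc.monic_denom x)).1 (by omega)
    refine ⟨x.num, by omega, ?_⟩
    conv_lhs => rw [← RatFunc.num_div_denom x, hd, map_one, div_one]
  · rintro ⟨p, hp, rfl⟩
    simp only [poleDeg, RatFunc.num_algebraMap, RatFunc.denom_algebraMap, natDegree_one]
    exact_mod_cast (show max (2 * m + 0) p.natDegree = 2 * m by omega)

end FA.HindrySilverman
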